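import Mathlib
import Fermat.Agent.S25.DefsAlg
import Fermat.Agent.S25.H250.AdapterProj
import Fermat.Agent.S25.H250.DegreeBound

/-!
# S25 / DEGREE (helper671): global functions on the curve are constant

For a curve chart `(B₀, B₁, B₀₁, x, y, e)` over an algebraically closed field `k`:
* `H0_finite_of_field` : `H⁰` of a gluing datum over a field is finite-dimensional;
* `exists_algebraMap_eq_of_glue` : `b₀ ∈ B₀`, `b₁ ∈ B₁` with the same image in `B₀₁` are one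
  and the same constant `c ∈ k`;
* `mem_unit_H0_iff` : over any `k`-algebra `A`, `H⁰` of the unit gluing datum consists of the
  pairs `(a ⊗ 1, a ⊗ 1)`, `a ∈ A`;
* `finrank_unit_H0` : over a field `K ⊇ k`, `dim H⁰(unit) = 1`.
-/

set_option autoImplicit false

open scoped TensorProduct

namespace Fermat.Agent.S25.H671

open Fermat.Agent.S25 Fermat.Agent.S25.H10 Fermat.Agent.S25.H250

universe u

variable {k : Type u} [Field k] {B₀ B₁ B₀₁ : Type u} [CommRing B₀] [CommRing B₁] [CommRing B₀₁]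
  [Algebra k B₀] [Algebra k B₁] [Algebra k B₀₁] [Algebra B₀ B₀₁] [Algebra B₁ B₀₁]
  [IsScalarTower k B₀ B₀₁] [IsScalarTower k B₁ B₀₁]
  {x : B₀} {y : B₁} {e : B₁ →ₐ[k] k}

/-- `H⁰` of a gluing datum over a field is finite-dimensional. -/
theorem H0_finite_of_field (hC : IsCurveChart k B₀ B₁ B₀₁ x y e) {K : Type u} [Field K]
    [Algebra k K] (G : CurveGD k B₀ B₁ B₀₁ K) : Module.Finite K G.H0 := by
  obtain ⟨M, hM, hle⟩ := exists_fg_ge_H0 (chartCechOps hC G) (isFGProj_X0 hC G)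
    (isFGProj_Y1 hC G) (r0_injective hC G) (r1_injective hC G) 0
  rw [chartCechOps_H0_zero] at hle
  have : Module.Finite K M := Module.Finite.iff_fg.2 hM
  exact Module.Finite.of_injective (Submodule.inclusion hle) (Submodule.inclusion_injective hle)

/-- The unit gluing datum on `C_A`. -/
noncomputable abbrev unitGD (k : Type u) [Field k] (B₀ B₁ B₀₁ : Type u) [CommRing B₀] [CommRing B₁]
    [CommRing B₀₁] [Algebra k B₀] [Algebra k B₁] [Algebra k B₀₁] [Algebra B₀ B₀₁] [Algebra B₁ B₀₁]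
    [IsScalarTower k B₀ B₀₁] [IsScalarTower k B₁ B₀₁] (A : Type u) [CommRing A] [Algebra k A] :
    CurveGD k B₀ B₁ B₀₁ A :=
  GlueDatum.unit A (A ⊗[k] B₀) (A ⊗[k] B₁) (A ⊗[k] B₀₁)

theorem unit_cech_apply {A : Type u} [CommRing A] [Algebra k A]
    (s₀ : A ⊗[k] B₀) (s₁ : A ⊗[k] B₁) :
    @Eq (A ⊗[k] B₀₁) ((unitGD k B₀ B₁ B₀₁ A).cech (s₀, s₁))
      (algebraMap (A ⊗[k] B₀) (A ⊗[k] B₀₁) s₀ - algebraMap (A ⊗[k] B₁) (A ⊗[k] B₀₁) s₁) :=
  (sub_eq_add_neg (algebraMap (A ⊗[k] B₀) (A ⊗[k] B₀₁) s₀)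
    (algebraMap (A ⊗[k] B₁) (A ⊗[k] B₀₁) s₁)).symm

theorem mem_unit_H0 {A : Type u} [CommRing A] [Algebra k A]
    (s₀ : A ⊗[k] B₀) (s₁ : A ⊗[k] B₁) :
    (s₀, s₁) ∈ (unitGD k B₀ B₁ B₀₁ A).H0 ↔
      algebraMap (A ⊗[k] B₀) (A ⊗[k] B₀₁) s₀ = algebraMap (A ⊗[k] B₁) (A ⊗[k] B₀₁) s₁ :=
  ⟨fun h => sub_eq_zero.1 ((unit_cech_apply s₀ s₁).symm.trans h),
    fun h => (unit_cech_apply s₀ s₁).trans (sub_eq_zero.2 h)⟩

section AlgClosed

variable [IsAlgClosed k]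

/-- Over `k` itself: elements of `H⁰(unit)` are constants. -/
theorem exists_eq_algebraMap_of_mem_unit_H0 (hC : IsCurveChart k B₀ B₁ B₀₁ x y e)
    (s₀ : k ⊗[k] B₀) (s₁ : k ⊗[k] B₁)
    (h : algebraMap (k ⊗[k] B₀) (k ⊗[k] B₀₁) s₀ = algebraMap (k ⊗[k] B₁) (k ⊗[k] B₀₁) s₁) :
    ∃ c : k, s₀ = algebraMap k (k ⊗[k] B₀) c ∧ s₁ = algebraMap k (k ⊗[k] B₁) c := by
  let f : ((k ⊗[k] B₀) × (k ⊗[k] B₁)) →ₐ[k] k ⊗[k] B₀₁ :=
    (tensorMapRight k k B₀ B₀₁).comp (AlgHom.fst k _ _)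
  let g : ((k ⊗[k] B₀) × (k ⊗[k] B₁)) →ₐ[k] k ⊗[k] B₀₁ :=
    (tensorMapRight k k B₁ B₀₁).comp (AlgHom.snd k _ _)
  let S : Subalgebra k ((k ⊗[k] B₀) × (k ⊗[k] B₁)) := AlgHom.equalizer f g
  have hS : ∀ t : (k ⊗[k] B₀) × (k ⊗[k] B₁), t ∈ S ↔
      algebraMap (k ⊗[k] B₀) (k ⊗[k] B₀₁) t.1 = algebraMap (k ⊗[k] B₁) (k ⊗[k] B₀₁) t.2 :=
    fun t => Iff.rfl
  -- finiteness
  have hfin : Module.Finite k (unitGD k B₀ B₁ B₀₁ k).H0 := H0_finite_of_field hC _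
  have hSfin : Module.Finite k S := by
    let φ : (unitGD k B₀ B₁ B₀₁ k).H0 →ₗ[k] S :=
      { toFun := fun t => ⟨(t.1.1, t.1.2), (hS _).2 ((mem_unit_H0 t.1.1 t.1.2).1 t.2)⟩
        map_add' := fun a b => rfl
        map_smul' := fun c a => rfl }
    refine Module.Finite.of_surjective φ ?_
    rintro ⟨⟨t₀, t₁⟩, ht⟩
    exact ⟨⟨(t₀, t₁), (mem_unit_H0 t₀ t₁).2 ((hS _).1 ht)⟩, rfl⟩
  -- domain
  have hinj₁ : Function.Injective (algebraMap (k ⊗[k] B₁) (k ⊗[k] B₀₁)) :=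
    r1_injective hC (unitGD k B₀ B₁ B₀₁ k)
  have hdom₀ : IsDomain B₀ := hC.isDomain₀
  let π : S →+* B₀ := (Algebra.TensorProduct.lid k B₀).toAlgHom.toRingHom.comp
    ((RingHom.fst _ _).comp S.val.toRingHom)
  have hπ : Function.Injective π := by
    rw [injective_iff_map_eq_zero]
    rintro ⟨⟨t₀, t₁⟩, ht⟩ h0
    have h0' : Algebra.TensorProduct.lid k B₀ t₀ = 0 := h0
    have ht₀ : t₀ = 0 := by simpa using h0'
    have ht' := (hS _).1 ht
    simp only at ht'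
    rw [ht₀, map_zero] at ht'
    have ht₁ : t₁ = 0 := hinj₁ (by rw [← ht', map_zero])
    apply Subtype.ext
    simp [ht₀, ht₁]
  have hSdom : IsDomain S := hπ.isDomain π
  have hbij := IsAlgClosed.algebraMap_bijective_of_isIntegral (k := k) (K := S)
  obtain ⟨c, hc⟩ := hbij.2 ⟨(s₀, s₁), (hS _).2 h⟩
  have hc' := congrArg Subtype.val hc
  refine ⟨c, ?_, ?_⟩
  · exact (congrArg Prod.fst hc').symm
  · exact (congrArg Prod.snd hc').symm

/-- **Global functions are constant.** Elements `b₀ ∈ B₀`, `b₁ ∈ B₁` which agree in `B₀₁` are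
one and the same constant. -/
theorem exists_algebraMap_eq_of_glue (hC : IsCurveChart k B₀ B₁ B₀₁ x y e) (b₀ : B₀) (b₁ : B₁)
    (h : algebraMap B₀ B₀₁ b₀ = algebraMap B₁ B₀₁ b₁) :
    ∃ c : k, b₀ = algebraMap k B₀ c ∧ b₁ = algebraMap k B₁ c := by
  obtain ⟨c, h₀, h₁⟩ := exists_eq_algebraMap_of_mem_unit_H0 hC ((1 : k) ⊗ₜ[k] b₀)
    ((1 : k) ⊗ₜ[k] b₁) (by rw [algebraMap_tensor_tmul, algebraMap_tensor_tmul, h])
  refine ⟨c, ?_, ?_⟩
  · have := congrArg (Algebra.TensorProduct.lid k B₀) h₀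
    simpa [Algebra.algebraMap_eq_smul_one] using this
  · have := congrArg (Algebra.TensorProduct.lid k B₁) h₁
    simpa [Algebra.algebraMap_eq_smul_one] using this

/-- The Čech differential of the unit datum over `k`, on the rings `B₀`, `B₁`, `B₀₁`. -/
noncomputable def cechRing (k : Type u) [Field k] (B₀ B₁ B₀₁ : Type u) [CommRing B₀] [CommRing B₁]
    [CommRing B₀₁] [Algebra k B₀] [Algebra k B₁] [Algebra k B₀₁] [Algebra B₀ B₀₁] [Algebra B₁ B₀₁]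
    [IsScalarTower k B₀ B₀₁] [IsScalarTower k B₁ B₀₁] : (B₀ × B₁) →ₗ[k] B₀₁ :=
  ((Algebra.linearMap B₀ B₀₁).restrictScalars k).coprod
    (-((Algebra.linearMap B₁ B₀₁).restrictScalars k))

/-- The diagonal `k → B₀ × B₁`. -/
noncomputable def diagRing (k : Type u) [Field k] (B₀ B₁ : Type u) [CommRing B₀] [CommRing B₁]
    [Algebra k B₀] [Algebra k B₁] : k →ₗ[k] (B₀ × B₁) :=
  (Algebra.linearMap k B₀).prod (Algebra.linearMap k B₁)

theorem exact_diagRing_cechRing (hC : IsCurveChart k B₀ B₁ B₀₁ x y e) :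
    Function.Exact (diagRing k B₀ B₁) (cechRing k B₀ B₁ B₀₁) := by
  rintro ⟨b₀, b₁⟩
  constructor
  · intro h
    have h' : algebraMap B₀ B₀₁ b₀ = algebraMap B₁ B₀₁ b₁ := by
      have : algebraMap B₀ B₀₁ b₀ + -(algebraMap B₁ B₀₁ b₁) = 0 := h
      rwa [← sub_eq_add_neg, sub_eq_zero] at this
    obtain ⟨c, h₀, h₁⟩ := exists_algebraMap_eq_of_glue hC b₀ b₁ h'
    exact ⟨c, by rw [h₀, h₁]; rfl⟩
  · rintro ⟨c, hc⟩
    have h₀ : algebraMap k B₀ c = b₀ := congrArg Prod.fst hc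
    have h₁ : algebraMap k B₁ c = b₁ := congrArg Prod.snd hc
    change algebraMap B₀ B₀₁ b₀ + -(algebraMap B₁ B₀₁ b₁) = 0
    rw [← h₀, ← h₁, ← IsScalarTower.algebraMap_apply, ← IsScalarTower.algebraMap_apply,
      add_neg_cancel]

omit [IsAlgClosed k] in
theorem lTensor_cechRing_apply (A : Type u) [CommRing A] [Algebra k A]
    (z : A ⊗[k] (B₀ × B₁)) :
    (cechRing k B₀ B₁ B₀₁).lTensor A z =
      algebraMap (A ⊗[k] B₀) (A ⊗[k] B₀₁) (TensorProduct.prodRight k A A B₀ B₁ z).1 -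
        algebraMap (A ⊗[k] B₁) (A ⊗[k] B₀₁) (TensorProduct.prodRight k A A B₀ B₁ z).2 := by
  induction z with
  | zero => simp
  | tmul a b =>
    obtain ⟨b₀, b₁⟩ := b
    rw [LinearMap.lTensor_tmul, TensorProduct.prodRight_tmul]
    simp only [algebraMap_tensor_tmul]
    rw [← TensorProduct.tmul_sub]
    congr 1
    change algebraMap B₀ B₀₁ b₀ + -(algebraMap B₁ B₀₁ b₁) = _
    rw [sub_eq_add_neg]
  | add z w hz hw =>
    rw [map_add, hz, hw, map_add, Prod.fst_add, Prod.snd_add, map_add, map_add]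
    abel

/-- **`H⁰` of the unit datum over any `k`-algebra `A` is `A`.** -/
theorem exists_eq_algebraMap_of_glue_tensor (hC : IsCurveChart k B₀ B₁ B₀₁ x y e)
    (A : Type u) [CommRing A] [Algebra k A] (s₀ : A ⊗[k] B₀) (s₁ : A ⊗[k] B₁)
    (h : algebraMap (A ⊗[k] B₀) (A ⊗[k] B₀₁) s₀ = algebraMap (A ⊗[k] B₁) (A ⊗[k] B₀₁) s₁) :
    ∃ a : A, s₀ = algebraMap A (A ⊗[k] B₀) a ∧ s₁ = algebraMap A (A ⊗[k] B₁) a := by
  have hex := Module.Flat.lTensor_exact A (exact_diagRing_cechRing hC)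
  set z := (TensorProduct.prodRight k A A B₀ B₁).symm (s₀, s₁) with hz
  have hz0 : (cechRing k B₀ B₁ B₀₁).lTensor A z = 0 := by
    rw [lTensor_cechRing_apply, hz, LinearEquiv.apply_symm_apply, sub_eq_zero]
    exact h
  obtain ⟨w, hw⟩ := (hex z).1 hz0
  refine ⟨TensorProduct.rid k A w, ?_⟩
  have hw' : w = (TensorProduct.rid k A w) ⊗ₜ[k] (1 : k) := by
    conv_lhs => rw [← (TensorProduct.rid k A).symm_apply_apply w]
    rfl
  have key : (s₀, s₁) = TensorProduct.prodRight k A A B₀ B₁ z := by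
    rw [hz, LinearEquiv.apply_symm_apply]
  rw [← hw, hw', LinearMap.lTensor_tmul] at key
  have hd : diagRing k B₀ B₁ (1 : k) = ((1 : B₀), (1 : B₁)) := by
    simp [diagRing]
  rw [hd, TensorProduct.prodRight_tmul] at key
  constructor
  · rw [Algebra.TensorProduct.algebraMap_apply]
    exact congrArg Prod.fst key
  · rw [Algebra.TensorProduct.algebraMap_apply]
    exact congrArg Prod.snd key

theorem mem_unit_H0_iff (hC : IsCurveChart k B₀ B₁ B₀₁ x y e)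
    (A : Type u) [CommRing A] [Algebra k A] (s₀ : A ⊗[k] B₀) (s₁ : A ⊗[k] B₁) :
    (s₀, s₁) ∈ (unitGD k B₀ B₁ B₀₁ A).H0 ↔
      ∃ a : A, s₀ = algebraMap A (A ⊗[k] B₀) a ∧ s₁ = algebraMap A (A ⊗[k] B₁) a := by
  rw [mem_unit_H0]
  constructor
  · exact exists_eq_algebraMap_of_glue_tensor hC A s₀ s₁
  · rintro ⟨a, rfl, rfl⟩
    rw [← IsScalarTower.algebraMap_apply, ← IsScalarTower.algebraMap_apply]

omit [IsAlgClosed k] in
theorem unit_glue_algebraMap (A : Type u) [CommRing A] [Algebra k A] (a : A) :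
    algebraMap (A ⊗[k] B₀) (A ⊗[k] B₀₁) (algebraMap A (A ⊗[k] B₀) a) =
      algebraMap (A ⊗[k] B₁) (A ⊗[k] B₀₁) (algebraMap A (A ⊗[k] B₁) a) := by
  rw [← IsScalarTower.algebraMap_apply, ← IsScalarTower.algebraMap_apply]

variable (k B₀ B₁ B₀₁) in
omit [IsAlgClosed k] in
/-- The diagonal map `A → H⁰(unit)`. -/
noncomputable def unitH0Map (A : Type u) [CommRing A] [Algebra k A] :
    A →ₗ[A] (unitGD k B₀ B₁ B₀₁ A).H0 :=
  LinearMap.codRestrict (unitGD k B₀ B₁ B₀₁ A).H0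
    (show A →ₗ[A] (unitGD k B₀ B₁ B₀₁ A).N₀ × (unitGD k B₀ B₁ B₀₁ A).N₁ from
      (Algebra.linearMap A (A ⊗[k] B₀)).prod (Algebra.linearMap A (A ⊗[k] B₁)))
    (fun a => (mem_unit_H0 (algebraMap A (A ⊗[k] B₀) a) (algebraMap A (A ⊗[k] B₁) a)).2
      (unit_glue_algebraMap A a))

theorem unitH0Map_surjective (hC : IsCurveChart k B₀ B₁ B₀₁ x y e)
    (A : Type u) [CommRing A] [Algebra k A] :
    Function.Surjective (unitH0Map k B₀ B₁ B₀₁ A) := by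
  rintro ⟨⟨s₀, s₁⟩, hs⟩
  obtain ⟨a, h₀, h₁⟩ := (mem_unit_H0_iff hC A s₀ s₁).1 hs
  refine ⟨a, Subtype.ext ?_⟩
  change (algebraMap A (A ⊗[k] B₀) a, algebraMap A (A ⊗[k] B₁) a) = (s₀, s₁)
  exact Prod.ext h₀.symm h₁.symm

omit [IsAlgClosed k] in
theorem unitH0Map_injective (hC : IsCurveChart k B₀ B₁ B₀₁ x y e)
    (A : Type u) [CommRing A] [Algebra k A] :
    Function.Injective (unitH0Map k B₀ B₁ B₀₁ A) := by
  have hdom₀ : IsDomain B₀ := hC.isDomain₀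
  have hinj : Function.Injective (algebraMap A (A ⊗[k] B₀)) :=
    Algebra.TensorProduct.includeLeft_injective (S := A) (algebraMap k B₀).injective
  intro a b hab
  apply hinj
  exact congrArg (fun t : (unitGD k B₀ B₁ B₀₁ A).H0 => (t.1.1 : A ⊗[k] B₀)) hab

/-- `H⁰(unit) ≅ A`. -/
noncomputable def unitH0Equiv (hC : IsCurveChart k B₀ B₁ B₀₁ x y e)
    (A : Type u) [CommRing A] [Algebra k A] : A ≃ₗ[A] (unitGD k B₀ B₁ B₀₁ A).H0 :=
  LinearEquiv.ofBijective (unitH0Map k B₀ B₁ B₀₁ A)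
    ⟨unitH0Map_injective hC A, unitH0Map_surjective hC A⟩

/-- Over a field, `dim H⁰(unit) = 1`. -/
theorem finrank_unit_H0 (hC : IsCurveChart k B₀ B₁ B₀₁ x y e)
    (K : Type u) [Field K] [Algebra k K] :
    Module.finrank K (GlueDatum.unit K (K ⊗[k] B₀) (K ⊗[k] B₁) (K ⊗[k] B₀₁)).H0 = 1 := by
  rw [← (unitH0Equiv hC K).finrank_eq, Module.finrank_self]

/-- Euler characteristic of the unit datum over a field: `χ(O) = 1 - h¹(O)`. -/
theorem euler_unit (hC : IsCurveChart k B₀ B₁ B₀₁ x y e) (K : Type u) [Field K] [Algebra k K] :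
    (GlueDatum.unit K (K ⊗[k] B₀) (K ⊗[k] B₁) (K ⊗[k] B₀₁)).euler =
      1 - (Module.finrank K (GlueDatum.unit K (K ⊗[k] B₀) (K ⊗[k] B₁) (K ⊗[k] B₀₁)).H1 : ℤ) := by
  rw [GlueDatum.euler, finrank_unit_H0 hC K]
  rfl

/-- **Riemann–Roch, definitional form**: `h⁰(G) - h¹(G) = deg G + 1 - h¹(O)`. -/
theorem finrank_H0_sub_finrank_H1 (hC : IsCurveChart k B₀ B₁ B₀₁ x y e) (K : Type u) [Field K]
    [Algebra k K] (G : CurveGD k B₀ B₁ B₀₁ K) :
    (Module.finrank K G.H0 : ℤ) - (Module.finrank K G.H1 : ℤ) =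
      G.degree + 1 -
        (Module.finrank K (GlueDatum.unit K (K ⊗[k] B₀) (K ⊗[k] B₁) (K ⊗[k] B₀₁)).H1 : ℤ) := by
  have h := euler_unit hC K
  rw [GlueDatum.degree, h, GlueDatum.euler]
  ring

/-- **Riemann inequality** `h⁰(G) ≥ deg G + 1 - g`, `g = h¹(O)`. -/
theorem riemann_inequality (hC : IsCurveChart k B₀ B₁ B₀₁ x y e) (K : Type u) [Field K]
    [Algebra k K] (G : CurveGD k B₀ B₁ B₀₁ K) :
    G.degree + 1 -
        (Module.finrank K (GlueDatum.unit K (K ⊗[k] B₀) (K ⊗[k] B₁) (K ⊗[k] B₀₁)).H1 : ℤ) ≤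
      (Module.finrank K G.H0 : ℤ) := by
  have h := finrank_H0_sub_finrank_H1 hC K G
  have h1 : (0 : ℤ) ≤ (Module.finrank K G.H1 : ℤ) := Int.natCast_nonneg _
  linarith

end AlgClosed

end Fermat.Agent.S25.H671
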