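import Mathlib

/-!
# S25 / ALGCHARTS (helper671): cancellation lemmas for invertible modules and ideals

* `ideal_le_of_smul_top_le` : for an invertible module `N`, `I₁ • N ≤ I₂ • N → I₁ ≤ I₂`;
* `ideal_le_of_mul_le_mul` : for an ideal `K` which is an invertible module,
  `I₁ * K ≤ I₂ * K → I₁ ≤ I₂`;
* `ideal_le_of_smul_le_smul` : for a submodule `M` of `N` which is an invertible module
  (e.g. `M = K • ⊤` …), `I₁ • M ≤ I₂ • M → I₁ ≤ I₂`.
-/

set_option autoImplicit false

open TensorProduct

namespace Fermat.Agent.S25.H671

variable {R : Type*} [CommRing R]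

/-- A linear form maps `I • M` into `I`. -/
theorem dual_apply_mem_of_mem_smul {N : Type*} [AddCommGroup N] [Module R N] (I : Ideal R)
    (M : Submodule R N) (φ : N →ₗ[R] R) {n : N} (hn : n ∈ I • M) : φ n ∈ I := by
  refine Submodule.smul_induction_on hn ?_ ?_
  · intro a ha m _
    rw [map_smul, smul_eq_mul]
    exact I.mul_mem_right _ ha
  · intro x y hx hy
    rw [map_add]
    exact I.add_mem hx hy

/-- **Cancellation of an invertible module.** -/
theorem ideal_le_of_smul_top_le {N : Type*} [AddCommGroup N] [Module R N] [Module.Invertible R N]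
    {I₁ I₂ : Ideal R} (h : I₁ • (⊤ : Submodule R N) ≤ I₂ • ⊤) : I₁ ≤ I₂ := by
  intro r hr
  have key : ∀ z : Module.Dual R N ⊗[R] N, contractLeft R N z * r ∈ I₂ := by
    intro z
    induction z with
    | zero => simp
    | tmul φ n =>
      rw [contractLeft_apply]
      have : φ n * r = φ (r • n) := by rw [map_smul, smul_eq_mul, mul_comm]
      rw [this]
      exact dual_apply_mem_of_mem_smul I₂ ⊤ φ
        (h (Submodule.smul_mem_smul hr Submodule.mem_top))
    | add x y hx hy =>
      rw [map_add, add_mul]
      exact I₂.add_mem hx hy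
  obtain ⟨z, hz⟩ := (Module.Invertible.bijective (R := R) (M := N)).2 1
  have := key z
  rwa [hz, one_mul] at this

theorem ideal_eq_of_smul_top_eq {N : Type*} [AddCommGroup N] [Module R N]
    [Module.Invertible R N] {I₁ I₂ : Ideal R}
    (h : I₁ • (⊤ : Submodule R N) = I₂ • ⊤) : I₁ = I₂ :=
  le_antisymm (ideal_le_of_smul_top_le h.le) (ideal_le_of_smul_top_le h.ge)

theorem exists_mem_smul_top_of_mem_mul {I K : Ideal R} {t : R} (ht : t ∈ I * K) :
    ∃ z : K, z ∈ I • (⊤ : Submodule R K) ∧ (z : R) = t := by
  refine Submodule.mul_induction_on ht ?_ ?_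
  · intro b hb c hc
    exact ⟨b • (⟨c, hc⟩ : K), Submodule.smul_mem_smul hb Submodule.mem_top, by simp⟩
  · rintro u v ⟨zu, hzu, rfl⟩ ⟨zv, hzv, rfl⟩
    exact ⟨zu + zv, Submodule.add_mem _ hzu hzv, by simp⟩

/-- **Cancellation of an invertible ideal.** -/
theorem ideal_le_of_mul_le_mul {I₁ I₂ K : Ideal R} [Module.Invertible R K]
    (h : I₁ * K ≤ I₂ * K) : I₁ ≤ I₂ := by
  apply ideal_le_of_smul_top_le (N := K)
  intro n hn
  refine Submodule.smul_induction_on hn ?_ ?_
  · intro a ha m _
    have hm : a * (m : R) ∈ I₂ * K := h (Ideal.mul_mem_mul ha m.2)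
    obtain ⟨z, hz, hzt⟩ := exists_mem_smul_top_of_mem_mul hm
    have : a • m = z := Subtype.ext (by rw [hzt]; simp)
    rw [this]
    exact hz
  · intro x y hx hy
    exact Submodule.add_mem _ hx hy

theorem ideal_eq_of_mul_eq_mul {I₁ I₂ K : Ideal R} [Module.Invertible R K]
    (h : I₁ * K = I₂ * K) : I₁ = I₂ :=
  le_antisymm (ideal_le_of_mul_le_mul h.le) (ideal_le_of_mul_le_mul h.ge)

/-! ### Rank-one symmetry and colon ideals -/

/-- **Rank-one symmetry**: on an invertible module, `φ m • m' = φ m' • m`. -/
theorem dual_apply_smul_comm {N : Type*} [AddCommGroup N] [Module R N] [Module.Invertible R N]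
    (φ : Module.Dual R N) (m m' : N) : φ m • m' = φ m' • m := by
  have h := congrArg (TensorProduct.lift ((LinearMap.lsmul R N).comp φ))
    (Module.Invertible.tmul_comm (R := R) (m₁ := m) (m₂ := m'))
  simpa using h

/-- Every submodule `M'` of an invertible module `N` is of the form `I • N`, with
`I = (M' : N)`. -/
theorem submodule_eq_colon_smul_top {N : Type*} [AddCommGroup N] [Module R N]
    [Module.Invertible R N] (M' : Submodule R N) :
    M' = M'.colon (Set.univ : Set N) • (⊤ : Submodule R N) := by
  apply le_antisymm
  · intro t ht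
    have key : ∀ z : Module.Dual R N ⊗[R] N,
        contractLeft R N z • t ∈ M'.colon (Set.univ : Set N) • (⊤ : Submodule R N) := by
      intro z
      induction z with
      | zero => simp
      | tmul φ n =>
        rw [contractLeft_apply, dual_apply_smul_comm φ n t]
        refine Submodule.smul_mem_smul ?_ Submodule.mem_top
        rw [Submodule.mem_colon]
        intro c _
        rw [dual_apply_smul_comm φ t c]
        exact M'.smul_mem _ ht
      | add x y hx hy =>
        rw [map_add, add_smul]
        exact Submodule.add_mem _ hx hy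
    obtain ⟨z, hz⟩ := (Module.Invertible.bijective (R := R) (M := N)).2 1
    have := key z
    rwa [hz, one_smul] at this
  · rw [Submodule.smul_le]
    intro r hr n _
    exact Submodule.mem_colon.1 hr n (Set.mem_univ n)

/-- Every ideal `I₀` contained in an invertible ideal `K` is of the form `(I₀ : K) * K`. -/
theorem ideal_eq_colon_mul {I₀ K : Ideal R} [Module.Invertible R K] (h : I₀ ≤ K) :
    I₀ = I₀.colon (K : Set R) * K := by
  apply le_antisymm
  · intro t ht
    have key : ∀ z : Module.Dual R K ⊗[R] K,
        contractLeft R K z * t ∈ I₀.colon (K : Set R) * K := by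
      intro z
      induction z with
      | zero => simp
      | tmul φ n =>
        rw [contractLeft_apply]
        have h1 : φ n • (⟨t, h ht⟩ : K) = φ ⟨t, h ht⟩ • n := dual_apply_smul_comm φ n _
        have h2 : φ n * t = φ ⟨t, h ht⟩ * (n : R) := by
          have := congrArg Subtype.val h1
          simpa using this
        rw [h2]
        refine Ideal.mul_mem_mul ?_ n.2
        rw [Submodule.mem_colon]
        intro c hc
        have h3 : φ ⟨t, h ht⟩ • (⟨c, hc⟩ : K) = φ ⟨c, hc⟩ • (⟨t, h ht⟩ : K) :=
          dual_apply_smul_comm φ _ _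
        have h4 : φ ⟨t, h ht⟩ * c = φ ⟨c, hc⟩ * t := by
          have := congrArg Subtype.val h3
          simpa using this
        rw [smul_eq_mul, h4]
        exact I₀.mul_mem_left _ ht
      | add x y hx hy =>
        rw [map_add, add_mul]
        exact Ideal.add_mem _ hx hy
    obtain ⟨z, hz⟩ := (Module.Invertible.bijective (R := R) (M := K)).2 1
    have := key z
    rwa [hz, one_mul] at this
  · rw [Ideal.mul_le]
    intro r hr c hc
    exact Submodule.mem_colon.1 hr c hc

/-- **Divisor of a section vanishing on an invertible ideal.**  If `N` is an invertible module,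
`K` an invertible ideal and `M' ≤ K • N`, then `M' = ((M' : K • N) * K) • N`. -/
theorem submodule_eq_colon_mul_smul_top {N : Type*} [AddCommGroup N] [Module R N]
    [Module.Invertible R N] {K : Ideal R} [Module.Invertible R K] {M' : Submodule R N}
    (h : M' ≤ K • (⊤ : Submodule R N)) :
    M' = (M'.colon ((K • (⊤ : Submodule R N) : Submodule R N) : Set N) * K) •
      (⊤ : Submodule R N) := by
  apply le_antisymm
  · have h1 : M' = M'.colon (Set.univ : Set N) • (⊤ : Submodule R N) :=
      submodule_eq_colon_smul_top M'
    have h2 : M'.colon (Set.univ : Set N) ≤ K := by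
      apply ideal_le_of_smul_top_le (N := N)
      rw [← h1]
      exact h
    have h3 := ideal_eq_colon_mul h2
    have h4 : (M'.colon (Set.univ : Set N)).colon (K : Set R) ≤
        M'.colon ((K • (⊤ : Submodule R N) : Submodule R N) : Set N) := by
      intro r hr
      rw [Submodule.mem_colon] at hr ⊢
      intro n hn
      refine Submodule.smul_induction_on hn ?_ ?_
      · intro c hc n' _
        rw [← mul_smul]
        have := hr c hc
        rw [smul_eq_mul] at this
        exact Submodule.mem_colon.1 this n' (Set.mem_univ _)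
      · intro a b ha hb
        rw [smul_add]
        exact M'.add_mem ha hb
    calc M' = M'.colon (Set.univ : Set N) • (⊤ : Submodule R N) := h1
      _ = ((M'.colon (Set.univ : Set N)).colon (K : Set R) * K) • (⊤ : Submodule R N) := by
          rw [← h3]
      _ ≤ _ := Submodule.smul_mono_left (Ideal.mul_mono_left h4)
  · rw [Submodule.smul_le]
    intro r hr n _
    refine Submodule.mul_induction_on hr ?_ ?_
    · intro a ha c hc
      rw [mul_smul]
      exact Submodule.mem_colon.1 ha _ (Submodule.smul_mem_smul hc Submodule.mem_top)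
    · intro a b ha hb
      rw [add_smul]
      exact M'.add_mem ha hb

/-- The colon ideal in `submodule_eq_colon_mul_smul_top` is the unique ideal `I'` with
`M' = (I' * K) • N`. -/
theorem eq_colon_of_eq_mul_smul_top {N : Type*} [AddCommGroup N] [Module R N]
    [Module.Invertible R N] {K : Ideal R} [Module.Invertible R K] {M' : Submodule R N}
    {I' : Ideal R} (h : M' = (I' * K) • (⊤ : Submodule R N)) :
    I' = M'.colon ((K • (⊤ : Submodule R N) : Submodule R N) : Set N) := by
  have hle : M' ≤ K • (⊤ : Submodule R N) := by
    rw [h]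
    exact Submodule.smul_mono_left Ideal.mul_le_right
  have h1 := submodule_eq_colon_mul_smul_top hle
  rw [h] at h1
  have h2 := ideal_eq_of_smul_top_eq h1
  rw [← h] at h2
  exact ideal_eq_of_mul_eq_mul h2

end Fermat.Agent.S25.H671
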