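import Fermat.Agent.S25.H11.ACDefs
import Fermat.Agent.S25.H671.ACCancel

/-!
# S25 / ALGCHARTS (helper671): generators of `H⁰(G(nE₀ - Σq))` and base change

Reusable lemmas for the stage lemmas and the point lemmas of block ALGCHARTS:
* `sbc_induction` : induction principle for a semilinear base change;
* `ker_ptHom`, `ptIdeal_map` : the ideal of `Σ q i` commutes with base change;
* `isUnit_of_genModY_smul`, `isGen_exists_isUnit_smul`, `isGen_of_mem_of_genModY` : a generator
  is unique up to a unit of `A`;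
* `isGen_span_fst_eq` : the submodule generated by `s.1` does not depend on the generator `s`;
* `mem_secq_bcPair`, `genModY_baseChange`, `isGen_bcPair`, `span_fst_bcPair` : behaviour of the
  data of a generator under `GlueDatum.BaseChangeMaps`.
-/

set_option autoImplicit false
set_option linter.unusedSectionVars false
set_option linter.style.haveILetI false

universe u

open scoped TensorProduct

namespace Fermat.Agent.S25.H671

open Fermat.Agent.S25 Fermat.Agent.S25.H11

/-- Induction principle for a semilinear base change. -/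
theorem sbc_induction {R R' : Type u} [CommRing R] [CommRing R'] (ρ : R →+* R')
    {N N' : Type u} [AddCommGroup N] [Module R N] [AddCommGroup N'] [Module R' N']
    (b : N →ₛₗ[ρ] N') (hb : IsSemilinearBaseChange ρ b) (P : N' → Prop)
    (h0 : P 0) (himg : ∀ n, P (b n)) (hsmul : ∀ (r' : R') (n' : N'), P n' → P (r' • n'))
    (hadd : ∀ n₁ n₂, P n₁ → P n₂ → P (n₁ + n₂)) (z : N') : P z := by
  let _ : Algebra R R' := ρ.toAlgebra
  let _ : Module R N' := Module.compHom N' ρ
  have : IsScalarTower R R' N' := ⟨fun r r' n => by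
    change (ρ r * r') • n = ρ r • (r' • n); rw [mul_smul]⟩
  exact IsBaseChange.inductionOn hb z P h0 himg hsmul hadd

variable {k : Type u} [Field k]
  {B₀ B₁ B₀₁ : Type u} [CommRing B₀] [CommRing B₁] [CommRing B₀₁]
  [Algebra k B₀] [Algebra k B₁] [Algebra k B₀₁] [Algebra B₀ B₀₁] [Algebra B₁ B₀₁]
  [IsScalarTower k B₀ B₀₁] [IsScalarTower k B₁ B₀₁]
  {x : B₀} {y : B₁} {e : B₁ →ₐ[k] k}

section PtIdeal

variable {A A' : Type u} [CommRing A] [Algebra k A] [CommRing A'] [Algebra k A']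

theorem sub_ptHom_mem (p : B₀ →ₐ[k] k) (z : A ⊗[k] B₀) :
    z - (ptHom p A z) ⊗ₜ[k] (1 : B₀) ∈
      (RingHom.ker (p : B₀ →+* k)).map
        (Algebra.TensorProduct.includeRight : B₀ →ₐ[k] A ⊗[k] B₀) := by
  induction z with
  | zero => simp
  | tmul a b =>
    have h1 : a ⊗ₜ[k] b - (ptHom p A (a ⊗ₜ[k] b)) ⊗ₜ[k] (1 : B₀)
        = (a ⊗ₜ[k] (1 : B₀)) * ((1 : A) ⊗ₜ[k] (b - algebraMap k B₀ (p b))) := by
      rw [ptHom_tmul, Algebra.TensorProduct.tmul_mul_tmul, mul_one, one_mul,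
        TensorProduct.tmul_sub, Algebra.algebraMap_eq_smul_one, Algebra.algebraMap_eq_smul_one,
        TensorProduct.tmul_smul, mul_smul_comm, mul_one, TensorProduct.smul_tmul']
    rw [h1]
    refine Ideal.mul_mem_left _ _ (Ideal.mem_map_of_mem _ ?_)
    rw [RingHom.mem_ker]
    simp
  | add z w hz hw =>
    rw [map_add, TensorProduct.add_tmul, add_sub_add_comm]
    exact Ideal.add_mem _ hz hw

/-- The ideal of an `A`-point coming from a `k`-point `p` is generated by `1 ⊗ ker p`. -/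
theorem ker_ptHom (p : B₀ →ₐ[k] k) :
    RingHom.ker (ptHom p A) =
      (RingHom.ker (p : B₀ →+* k)).map
        (Algebra.TensorProduct.includeRight : B₀ →ₐ[k] A ⊗[k] B₀) := by
  apply le_antisymm
  · intro z hz
    have := sub_ptHom_mem (A := A) p z
    rw [RingHom.mem_ker] at hz
    rwa [hz, TensorProduct.zero_tmul, sub_zero] at this
  · rw [Ideal.map_le_iff_le_comap]
    intro b hb
    rw [RingHom.mem_ker] at hb
    rw [Ideal.mem_comap, RingHom.mem_ker]
    change ptHom p A ((1 : A) ⊗ₜ[k] b) = 0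
    rw [ptHom_tmul]
    have : p b = 0 := hb
    rw [this, map_zero, mul_zero]

theorem ker_ptHom_map (ψ : A →ₐ[k] A') (p : B₀ →ₐ[k] k) :
    (RingHom.ker (ptHom p A)).map (tensorMapLeft k ψ B₀) = RingHom.ker (ptHom p A') := by
  rw [ker_ptHom, ker_ptHom]
  have hcomp : ∀ b : B₀, tensorMapLeft k ψ B₀
      ((Algebra.TensorProduct.includeRight : B₀ →ₐ[k] A ⊗[k] B₀) b) =
        (Algebra.TensorProduct.includeRight : B₀ →ₐ[k] A' ⊗[k] B₀) b := by
    intro b
    simp [tensorMapLeft]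
  apply le_antisymm
  · rw [Ideal.map_le_iff_le_comap, Ideal.map_le_iff_le_comap]
    intro b hb
    rw [Ideal.mem_comap, Ideal.mem_comap, hcomp]
    exact Ideal.mem_map_of_mem _ hb
  · rw [Ideal.map_le_iff_le_comap]
    intro b hb
    rw [Ideal.mem_comap, ← hcomp]
    exact Ideal.mem_map_of_mem _ (Ideal.mem_map_of_mem _ hb)

/-- `ptIdeal` commutes with base change. -/
theorem ptIdeal_map (ψ : A →ₐ[k] A') {m : ℕ} (q : Fin m → (B₀ →ₐ[k] k)) :
    (ptIdeal q A).map (tensorMapLeft k ψ B₀) = ptIdeal q A' := by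
  have h := map_prod (Ideal.mapHom (tensorMapLeft k ψ B₀))
    (fun i => RingHom.ker (ptHom (q i) A)) Finset.univ
  simp only [Ideal.mapHom_apply] at h
  rw [ptIdeal, ptIdeal, h]
  exact Finset.prod_congr rfl fun i _ => ker_ptHom_map ψ (q i)

theorem tensorMapLeft_xElt (ψ : A →ₐ[k] A') (x : B₀) :
    tensorMapLeft k ψ B₀₁ (xElt k B₀₁ A x) = xElt k B₀₁ A' x := by
  simp [tensorMapLeft, xElt]

theorem tensorMapLeft_yElt (ψ : A →ₐ[k] A') (y : B₁) :
    tensorMapLeft k ψ B₁ (yElt k A y) = yElt k A' y := by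
  simp [tensorMapLeft, yElt]

theorem epsHom_yElt (hC : IsCurveChart k B₀ B₁ B₀₁ x y e) :
    epsHom e A (yElt k A y) = 0 := by
  simp [epsHom, yElt, hC.e_y]

end PtIdeal

/-! ### Generic semilinear base change lemmas -/

section Semilinear

variable {R R' : Type u} [CommRing R] [CommRing R'] {ρ : R →+* R'}
  {N N' : Type u} [AddCommGroup N] [Module R N] [AddCommGroup N'] [Module R' N']

/-- A semilinear map sends `I • N` into `I.map ρ • N'`. -/
theorem map_mem_map_smul_top (b : N →ₛₗ[ρ] N') (I : Ideal R) {n : N}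
    (hn : n ∈ I • (⊤ : Submodule R N)) : b n ∈ I.map ρ • (⊤ : Submodule R' N') := by
  refine Submodule.smul_induction_on hn ?_ ?_
  · intro r hr m _
    rw [map_smulₛₗ]
    exact Submodule.smul_mem_smul (Ideal.mem_map_of_mem ρ hr) Submodule.mem_top
  · intro a c ha hc
    rw [map_add]
    exact Submodule.add_mem _ ha hc

/-- **Base change of the divisor of a section**: if `R s = I • N` then `R' b(s) = I R' • N'`. -/
theorem span_singleton_baseChange (b : N →ₛₗ[ρ] N') (hb : IsSemilinearBaseChange ρ b)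
    (I : Ideal R) {s : N} (hs : Submodule.span R {s} = I • (⊤ : Submodule R N)) :
    Submodule.span R' {b s} = I.map ρ • (⊤ : Submodule R' N') := by
  apply le_antisymm
  · rw [Submodule.span_singleton_le_iff_mem]
    apply map_mem_map_smul_top b I
    rw [← hs]
    exact Submodule.mem_span_singleton_self s
  · rw [Submodule.smul_le]
    intro r' hr' n' _
    suffices h : ∀ n' : N', r' • n' ∈ Submodule.span R' {b s} from h n'
    refine Submodule.span_induction (p := fun r' _ => ∀ n' : N', r' • n' ∈ Submodule.span R' {b s})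
      ?_ ?_ ?_ ?_ hr'
    · rintro _ ⟨r, hr, rfl⟩ n'
      refine sbc_induction ρ b hb (fun n' => ρ r • n' ∈ Submodule.span R' {b s}) ?_ ?_ ?_ ?_ n'
      · simp
      · intro n
        have h1 : r • n ∈ Submodule.span R {s} := by
          rw [hs]
          exact Submodule.smul_mem_smul hr Submodule.mem_top
        obtain ⟨c, hc⟩ := Submodule.mem_span_singleton.1 h1
        rw [← map_smulₛₗ, ← hc, map_smulₛₗ]
        exact Submodule.smul_mem _ _ (Submodule.mem_span_singleton_self _)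
      · intro t n' hn'
        rw [smul_comm]
        exact Submodule.smul_mem _ _ hn'
      · intro n₁ n₂ h₁ h₂
        rw [smul_add]
        exact Submodule.add_mem _ h₁ h₂
    · intro n'
      simp
    · intro a c _ _ ha hc n'
      rw [add_smul]
      exact Submodule.add_mem _ (ha n') (hc n')
    · intro t a _ ha n'
      rw [smul_eq_mul, mul_smul]
      exact Submodule.smul_mem _ _ (ha n')

end Semilinear

/-! ### Generators are unique up to a unit -/

section Gen

variable {A : Type u} [CommRing A] [Algebra k A]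

/-- If `b` and `a • b` both generate `N₁` modulo `y`, then `a` is a unit (evaluate at the marked
point `e`, where `y = 0`). -/
theorem isUnit_of_genModY_smul (hC : IsCurveChart k B₀ B₁ B₀₁ x y e)
    (G : CurveGD k B₀ B₁ B₀₁ A) {b : G.N₁} {a : A} (hb : GenModY y G b)
    (hab : GenModY y G (a • b)) : IsUnit a := by
  haveI : Module.Invertible (A ⊗[k] B₁) G.N₁ := G.invertible₁
  obtain ⟨r, hr⟩ := hab b
  set Y : Submodule (A ⊗[k] B₁) G.N₁ := Ideal.span {yElt k A y} • ⊤ with hY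
  set u : A ⊗[k] B₁ := 1 - r * algebraMap A (A ⊗[k] B₁) a with hu
  have hub : u • b ∈ Y := by
    have : u • b = b - r • a • b := by
      rw [hu, sub_smul, one_smul, mul_smul, algebraMap_smul]
    rw [this]
    exact hr
  have huc : ∀ c : G.N₁, u • c ∈ Y := by
    intro c
    obtain ⟨rc, hrc⟩ := hb c
    have : u • c = u • (c - rc • b) + rc • (u • b) := by
      rw [smul_sub, smul_comm rc u b]
      abel
    rw [this]
    exact Y.add_mem (Y.smul_mem _ hrc) (Y.smul_mem _ hub)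
  have hle : Ideal.span {u} • (⊤ : Submodule (A ⊗[k] B₁) G.N₁) ≤ Ideal.span {yElt k A y} • ⊤ := by
    rw [Submodule.smul_le]
    intro r' hr' n _
    obtain ⟨t, rfl⟩ := Ideal.mem_span_singleton'.1 hr'
    rw [mul_smul]
    exact Y.smul_mem _ (huc n)
  have hmem : u ∈ Ideal.span {yElt k A y} :=
    ideal_le_of_smul_top_le hle (Ideal.mem_span_singleton_self u)
  obtain ⟨t, ht⟩ := Ideal.mem_span_singleton'.1 hmem
  have h0 : epsHom e A u = 0 := by
    rw [← ht, map_mul, epsHom_yElt hC, mul_zero]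
  have h1 : epsHom e A u = 1 - epsHom e A r * a := by
    rw [hu, map_sub, map_one, map_mul, AlgHom.commutes]
    rfl
  rw [h1, sub_eq_zero] at h0
  exact IsUnit.of_mul_eq_one _ (by rw [mul_comm]; exact h0.symm)

variable {n m : ℕ} {q : Fin m → (B₀ →ₐ[k] k)} {G : CurveGD k B₀ B₁ B₀₁ A}

/-- Any section of `H⁰(G(nE₀ - Σq))` not vanishing on `E₀` is a unit multiple of a given
generator. -/
theorem isGen_exists_isUnit_smul (hC : IsCurveChart k B₀ B₁ B₀₁ x y e) {s t : G.N₀ × G.N₁}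
    (hs : IsGen x y n q G s) (ht : t ∈ secq x n q G) (htg : GenModY y G t.2) :
    ∃ a : A, IsUnit a ∧ t = a • s := by
  obtain ⟨a, ha⟩ := hs.span t ht
  refine ⟨a, ?_, ha⟩
  have h2 : t.2 = a • s.2 := by rw [ha]; rfl
  rw [h2] at htg
  exact isUnit_of_genModY_smul hC G hs.gen htg

/-- Any section of `H⁰(G(nE₀ - Σq))` not vanishing on `E₀` is a generator, as soon as there is
one. -/
theorem isGen_of_mem_of_genModY (hC : IsCurveChart k B₀ B₁ B₀₁ x y e) {s t : G.N₀ × G.N₁}
    (hs : IsGen x y n q G s) (ht : t ∈ secq x n q G) (htg : GenModY y G t.2) :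
    IsGen x y n q G t := by
  obtain ⟨a, ha, hta⟩ := isGen_exists_isUnit_smul hC hs ht htg
  obtain ⟨a', ha'⟩ := ha.exists_left_inv
  refine ⟨ht, fun t' ht' => ?_, htg⟩
  obtain ⟨c, hc⟩ := hs.span t' ht'
  refine ⟨c * a', ?_⟩
  rw [hta, ← mul_smul, mul_assoc, ha', mul_one, hc]

/-- The submodule of `N₀` generated by the first component of a generator does not depend on
the generator. -/
theorem isGen_span_fst_eq (hC : IsCurveChart k B₀ B₁ B₀₁ x y e) {s t : G.N₀ × G.N₁}
    (hs : IsGen x y n q G s) (ht : IsGen x y n q G t) :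
    Submodule.span (A ⊗[k] B₀) {t.1} = Submodule.span (A ⊗[k] B₀) {s.1} := by
  obtain ⟨a, ha, hta⟩ := isGen_exists_isUnit_smul hC hs ht.mem ht.gen
  have h1 : t.1 = algebraMap A (A ⊗[k] B₀) a • s.1 := by
    rw [hta, algebraMap_smul]
    rfl
  rw [h1]
  exact Submodule.span_singleton_smul_eq (ha.map (algebraMap A (A ⊗[k] B₀))) s.1

end Gen

/-! ### Base change of sections -/

section BC

variable {A A' : Type u} [CommRing A] [Algebra k A] [CommRing A'] [Algebra k A']
  {ψ : A →ₐ[k] A'} {G : CurveGD k B₀ B₁ B₀₁ A} {G' : CurveGD k B₀ B₁ B₀₁ A'}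
  {n m : ℕ} {q : Fin m → (B₀ →ₐ[k] k)}

/-- The image of a pair of sections under a base change. -/
def bcPair (bm : GlueDatum.BaseChangeMaps (tensorMapLeft k ψ B₀) (tensorMapLeft k ψ B₁)
    (tensorMapLeft k ψ B₀₁) G G') (s : G.N₀ × G.N₁) : G'.N₀ × G'.N₁ :=
  (bm.b₀ s.1, bm.b₁ s.2)

theorem mem_sec_bcPair (bm : GlueDatum.BaseChangeMaps (tensorMapLeft k ψ B₀)
    (tensorMapLeft k ψ B₁) (tensorMapLeft k ψ B₀₁) G G') {s : G.N₀ × G.N₁}
    (hs : s ∈ sec x n G) : bcPair bm s ∈ sec x n G' := by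
  rw [mem_sec] at hs ⊢
  change G'.r₀ (bm.b₀ s.1) = xElt k B₀₁ A' x ^ n • G'.r₁ (bm.b₁ s.2)
  rw [← bm.comm₀, ← bm.comm₁, hs, map_smulₛₗ, map_pow, tensorMapLeft_xElt]

theorem mem_vanq_baseChange (bm : GlueDatum.BaseChangeMaps (tensorMapLeft k ψ B₀)
    (tensorMapLeft k ψ B₁) (tensorMapLeft k ψ B₀₁) G G') {a : G.N₀} (ha : a ∈ vanq q G) :
    bm.b₀ a ∈ vanq q G' := by
  have := map_mem_map_smul_top bm.b₀ (ptIdeal q A) ha
  rwa [ptIdeal_map] at this

theorem mem_secq_bcPair (bm : GlueDatum.BaseChangeMaps (tensorMapLeft k ψ B₀)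
    (tensorMapLeft k ψ B₁) (tensorMapLeft k ψ B₀₁) G G') {s : G.N₀ × G.N₁}
    (hs : s ∈ secq x n q G) : bcPair bm s ∈ secq x n q G' :=
  mem_secq.2 ⟨mem_sec_bcPair bm (mem_secq.1 hs).1, mem_vanq_baseChange bm (mem_secq.1 hs).2⟩

theorem genModY_baseChange (bm : GlueDatum.BaseChangeMaps (tensorMapLeft k ψ B₀)
    (tensorMapLeft k ψ B₁) (tensorMapLeft k ψ B₀₁) G G') {b : G.N₁} (hb : GenModY y G b) :
    GenModY y G' (bm.b₁ b) := by
  intro c'
  set Y' : Submodule (A' ⊗[k] B₁) G'.N₁ := Ideal.span {yElt k A' y} • ⊤ with hY'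
  refine sbc_induction _ bm.b₁ bm.isBaseChange₁
    (fun c' => ∃ r : A' ⊗[k] B₁, c' - r • bm.b₁ b ∈ Y') ?_ ?_ ?_ ?_ c'
  · exact ⟨0, by simp⟩
  · intro c
    obtain ⟨r, hr⟩ := hb c
    refine ⟨tensorMapLeft k ψ B₁ r, ?_⟩
    have h1 := map_mem_map_smul_top bm.b₁ _ hr
    rw [Ideal.map_span, Set.image_singleton, tensorMapLeft_yElt, map_sub, map_smulₛₗ] at h1
    exact h1
  · rintro t c' ⟨r, hr⟩
    refine ⟨t * r, ?_⟩
    have : t • c' - (t * r) • bm.b₁ b = t • (c' - r • bm.b₁ b) := by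
      rw [smul_sub, mul_smul]
    rw [this]
    exact Y'.smul_mem _ hr
  · rintro c₁ c₂ ⟨r₁, h₁⟩ ⟨r₂, h₂⟩
    refine ⟨r₁ + r₂, ?_⟩
    have : c₁ + c₂ - (r₁ + r₂) • bm.b₁ b = (c₁ - r₁ • bm.b₁ b) + (c₂ - r₂ • bm.b₁ b) := by
      rw [add_smul]
      abel
    rw [this]
    exact Y'.add_mem h₁ h₂

/-- **Base change of a generator**: if `G'` has a generator, then the image of a generator of `G`
is a generator of `G'`. -/
theorem isGen_bcPair (hC : IsCurveChart k B₀ B₁ B₀₁ x y e)
    (bm : GlueDatum.BaseChangeMaps (tensorMapLeft k ψ B₀) (tensorMapLeft k ψ B₁)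
      (tensorMapLeft k ψ B₀₁) G G') {s : G.N₀ × G.N₁} (hs : IsGen x y n q G s)
    {s' : G'.N₀ × G'.N₁} (hs' : IsGen x y n q G' s') : IsGen x y n q G' (bcPair bm s) :=
  isGen_of_mem_of_genModY hC hs' (mem_secq_bcPair bm hs.mem) (genModY_baseChange bm hs.gen)

/-- **Base change of the divisor of a generator.** -/
theorem span_fst_bcPair (bm : GlueDatum.BaseChangeMaps (tensorMapLeft k ψ B₀)
    (tensorMapLeft k ψ B₁) (tensorMapLeft k ψ B₀₁) G G') {s : G.N₀ × G.N₁}
    {I' : Ideal (A ⊗[k] B₀)}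
    (hs : Submodule.span (A ⊗[k] B₀) {s.1} =
      (I' * ptIdeal q A) • (⊤ : Submodule (A ⊗[k] B₀) G.N₀)) :
    Submodule.span (A' ⊗[k] B₀) {(bcPair bm s).1} =
      (I'.map (tensorMapLeft k ψ B₀) * ptIdeal q A') •
        (⊤ : Submodule (A' ⊗[k] B₀) G'.N₀) := by
  have h := span_singleton_baseChange bm.b₀ bm.isBaseChange₀ _ hs
  rw [Ideal.map_mul, ptIdeal_map] at h
  exact h

end BC

end Fermat.Agent.S25.H671
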