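import Fermat.Agent.S25.H11.ACLeaves
import Fermat.Agent.S25.H265.GDCCurve
import Fermat.Agent.S25.H671.ACGen

/-!
# S25 / ALGCHARTS, leaf ST3 (helper671): assembly of `stage3_locus`

`stage3_locus_of` proves the conclusion of the leaf `H11.Leaf.Stage3` for a gluing datum `G` from

* `hst2`  : the conclusion of `H11.Leaf.Stage2` for `G` (only used to know that `P2` is stable
  under base change),
* `hinv`  : `ptIdeal q A'` is an invertible module (SH2),
* `hcore` : CORE, the divisor `D' = div s - Σq` of a generator is a point of `Hilb^g`: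
  `∃ s I', IsGen s ∧ IsHilb g I' ∧ span {s.1} = (I' * ptIdeal q A) • ⊤`.

The locus is `J := H491.chartIdeal β I'`.
-/

set_option autoImplicit false
set_option linter.unusedSectionVars false
set_option linter.style.haveILetI false

universe u

open scoped TensorProduct

namespace Fermat.Agent.S25.H671

open Fermat.Agent.S25 Fermat.Agent.S25.H11

variable {k : Type u} [Field k]
  {B₀ B₁ B₀₁ : Type u} [CommRing B₀] [CommRing B₁] [CommRing B₀₁]
  [Algebra k B₀] [Algebra k B₁] [Algebra k B₀₁] [Algebra B₀ B₀₁] [Algebra B₁ B₀₁]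
  [IsScalarTower k B₀ B₀₁] [IsScalarTower k B₁ B₀₁]
  {x : B₀} {y : B₁} {e : B₁ →ₐ[k] k}
  {A : Type u} [CommRing A] [Algebra k A]

/-- If a property of gluing data has a locus (in the sense of the stage lemmas) and holds for
`G`, then it holds for every base change of `G`. -/
theorem stable_of_locus {P : ∀ (A' : Type u) [CommRing A'] [Algebra k A'],
      CurveGD k B₀ B₁ B₀₁ A' → Prop} (G : CurveGD k B₀ B₁ B₀₁ A) (hG : P A G)
    (hloc : ∃ J : Ideal A, ∀ (A' : Type u) [CommRing A'] [Algebra k A'] (ψ : A →ₐ[k] A')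
      (G' : CurveGD k B₀ B₁ B₀₁ A'), CurveGD.IsBC ψ G G' → (P A' G' ↔ J.map ψ.toRingHom = ⊤))
    (A' : Type u) [CommRing A'] [Algebra k A'] (ψ : A →ₐ[k] A')
    (G' : CurveGD k B₀ B₁ B₀₁ A') (hbc : CurveGD.IsBC ψ G G') : P A' G' := by
  obtain ⟨J, hJ⟩ := hloc
  have h1 : J.map (AlgHom.id k A).toRingHom = ⊤ :=
    (hJ A (AlgHom.id k A) G (H265.curveGD_isBC_id G)).1 hG
  have h2 : J = ⊤ := by
    have : J.map (AlgHom.id k A).toRingHom = J := Ideal.map_id J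
    rw [← this, h1]
  rw [hJ A' ψ G' hbc, h2, Ideal.map_top]

/-- **ST3, assembly.**  The locus of `P3` for a gluing datum `G` with `P2`, given CORE. -/
theorem stage3_locus_of (hC : IsCurveChart k B₀ B₁ B₀₁ x y e) (i : ChartIndex k B₀)
    (G : CurveGD k B₀ B₁ B₀₁ A)
    (hP2 : ∀ (A' : Type u) [CommRing A'] [Algebra k A'] (ψ : A →ₐ[k] A')
      (G' : CurveGD k B₀ B₁ B₀₁ A'), CurveGD.IsBC ψ G G' → P2 x y i.n i.q G')
    (hinv : ∀ (A' : Type u) [CommRing A'] [Algebra k A'],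
      Module.Invertible (A' ⊗[k] B₀) (ptIdeal i.q A'))
    (hcore : ∃ (s : G.N₀ × G.N₁) (I' : Ideal (A ⊗[k] B₀)), IsGen x y i.n i.q G s ∧
      H491.IsHilb i.g I' ∧ Submodule.span (A ⊗[k] B₀) {s.1} =
        (I' * ptIdeal i.q A) • (⊤ : Submodule (A ⊗[k] B₀) G.N₀)) :
    ∃ J : Ideal A, ∀ (A' : Type u) [CommRing A'] [Algebra k A'] (ψ : A →ₐ[k] A')
      (G' : CurveGD k B₀ B₁ B₀₁ A'), CurveGD.IsBC ψ G G' →
        (P3 x y i.n i.q i.β G' ↔ J.map ψ.toRingHom = ⊤) := by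
  obtain ⟨s, I', hs, hI', hspan⟩ := hcore
  refine ⟨H491.chartIdeal i.β I', ?_⟩
  intro A' _ _ ψ G' hbc
  obtain ⟨bm⟩ := hbc
  obtain ⟨hP1', s'', hs''⟩ := hP2 A' ψ G' ⟨bm⟩
  have hs' : IsGen x y i.n i.q G' (bcPair bm s) := isGen_bcPair hC bm hs hs''
  have hspan' := span_fst_bcPair bm hspan
  have hchart : H491.IsChart i.β (I'.map (tensorMapLeft k ψ B₀)) ↔
      (H491.chartIdeal i.β I').map ψ.toRingHom = ⊤ :=
    H491.isChart_map_iff i.β hI' ψ
  rw [← hchart]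
  constructor
  · rintro ⟨-, t, ht, I₃, hI₃, hspan₃⟩
    have h1 : Submodule.span (A' ⊗[k] B₀) {(bcPair bm s).1} =
        Submodule.span (A' ⊗[k] B₀) {t.1} := isGen_span_fst_eq hC ht hs'
    rw [hspan', hspan₃] at h1
    haveI : Module.Invertible (A' ⊗[k] B₀) G'.N₀ := G'.invertible₀
    haveI : Module.Invertible (A' ⊗[k] B₀) (ptIdeal i.q A') := hinv A'
    have h2 := ideal_eq_of_mul_eq_mul (ideal_eq_of_smul_top_eq h1)
    rw [h2]
    exact hI₃
  · intro h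
    exact ⟨hP1', bcPair bm s, hs', _, h, hspan'⟩

/-- **ST3 from ST2 + SH2 + CORE**, in the shape of the leaf `H11.Leaf.Stage3`. -/
theorem stage3_of_stage2_of_core
    (hst2 : H11.Leaf.Stage2 k B₀ B₁ B₀₁)
    (hinv : ∀ (x : B₀) (y : B₁) (e : B₁ →ₐ[k] k), IsCurveChart k B₀ B₁ B₀₁ x y e →
      ∀ {m : ℕ} (q : Fin m → (B₀ →ₐ[k] k)) (A' : Type u) [CommRing A'] [Algebra k A'],
        Module.Invertible (A' ⊗[k] B₀) (ptIdeal q A'))
    (hcore : ∀ (x : B₀) (y : B₁) (e : B₁ →ₐ[k] k), IsCurveChart k B₀ B₁ B₀₁ x y e →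
      ∀ (i : ChartIndex k B₀), i.Numeric B₀₁ y →
      ∀ (A : Type u) [CommRing A] [Algebra k A] (G : CurveGD k B₀ B₁ B₀₁ A),
        G.Rigidifiable e → G.Deg0 → P2 x y i.n i.q G →
        ∃ (s : G.N₀ × G.N₁) (I' : Ideal (A ⊗[k] B₀)), IsGen x y i.n i.q G s ∧
          H491.IsHilb i.g I' ∧ Submodule.span (A ⊗[k] B₀) {s.1} =
            (I' * ptIdeal i.q A) • (⊤ : Submodule (A ⊗[k] B₀) G.N₀)) :
    H11.Leaf.Stage3 k B₀ B₁ B₀₁ := by
  intro x y e hC i hnum A _ _ G hrig hdeg h2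
  refine stage3_locus_of hC i G ?_ (fun A' _ _ => hinv x y e hC i.q A')
    (hcore x y e hC i hnum A G hrig hdeg h2)
  intro A' _ _ ψ G' hbc
  exact stable_of_locus (P := fun A' _ _ G' => P2 x y i.n i.q G') G h2
    (hst2 x y e hC i hnum A G hrig hdeg h2.1) A' ψ G' hbc

end Fermat.Agent.S25.H671
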