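import Fermat.Agent.S25.H671.HilbDiv
import Fermat.Agent.S25.H671.ACCancel

/-!
# S25 / ALGCHARTS, leaf ST3 (helper671): algebra for CORE

* `invertible_smul_top` : for an invertible ideal `K` and an invertible module `N`, the
  submodule `K • N` is an invertible module (`K ⊗ N ≃ K • N`);
* `finite_projective_of_invertible` : if a `T`-module `Q` is invertible over `T` and finite
  projective over `A`, then `T` is finite projective over `A` (`T` is a direct summand of `Qⁿ`);
* `quotient_finite_projective_of_smul_top` : if `P` is an invertible `R`-module and `P ⧸ I P` is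
  finite projective over `A`, then so is `R ⧸ I`, with the same rank.
-/

set_option autoImplicit false
set_option linter.style.haveILetI false
set_option linter.unusedSectionVars false

open scoped TensorProduct

namespace Fermat.Agent.S25.H671

section SmulTop

variable {R : Type*} [CommRing R] (K : Ideal R) (N : Type*) [AddCommGroup N] [Module R N]

/-- The map `K ⊗ N → N`, `a ⊗ n ↦ a • n`. -/
noncomputable def idealSmulMap : K ⊗[R] N →ₗ[R] N :=
  TensorProduct.lift ((LinearMap.lsmul R N).comp K.subtype)

@[simp] theorem idealSmulMap_tmul (a : K) (n : N) :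
    idealSmulMap K N (a ⊗ₜ[R] n) = (a : R) • n := by
  simp [idealSmulMap]

theorem range_idealSmulMap :
    LinearMap.range (idealSmulMap K N) = K • (⊤ : Submodule R N) := by
  apply le_antisymm
  · rintro _ ⟨z, rfl⟩
    induction z using TensorProduct.induction_on with
    | zero => simp
    | tmul a n =>
      rw [idealSmulMap_tmul]
      exact Submodule.smul_mem_smul a.2 Submodule.mem_top
    | add z w hz hw => rw [map_add]; exact Submodule.add_mem _ hz hw
  · rw [Submodule.smul_le]
    intro a ha n _
    exact ⟨(⟨a, ha⟩ : K) ⊗ₜ[R] n, by simp⟩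

theorem idealSmulMap_injective [Module.Flat R N] :
    Function.Injective (idealSmulMap K N) := by
  have h1 : Function.Injective (LinearMap.rTensor N K.subtype) :=
    Module.Flat.rTensor_preserves_injective_linearMap _ K.subtype_injective
  have h2 : idealSmulMap K N =
      (TensorProduct.lid R N).toLinearMap ∘ₗ LinearMap.rTensor N K.subtype := by
    ext a n
    simp
  rw [h2]
  exact (TensorProduct.lid R N).injective.comp h1

/-- `K ⊗ N ≃ K • N` for a flat module `N`. -/
noncomputable def tensorEquivSmulTop [Module.Flat R N] :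
    K ⊗[R] N ≃ₗ[R] ↥(K • (⊤ : Submodule R N)) :=
  (LinearEquiv.ofInjective (idealSmulMap K N) (idealSmulMap_injective K N)).trans
    (LinearEquiv.ofEq _ _ (range_idealSmulMap K N))

/-- For an invertible ideal `K` and an invertible module `N`, `K • N` is invertible. -/
theorem invertible_smul_top [Module.Invertible R K] [Module.Invertible R N] :
    Module.Invertible R ↥(K • (⊤ : Submodule R N)) :=
  Module.Invertible.congr (tensorEquivSmulTop K N)

end SmulTop

section Summand

variable (A T Q : Type*) [CommRing A] [CommRing T] [Algebra A T] [AddCommGroup Q] [Module T Q]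
  [Module A Q] [IsScalarTower A T Q]

/-- If `Q` is an invertible `T`-module, then `T` is a direct summand of some `Qⁿ`,
`T`-linearly. -/
theorem exists_split_of_invertible [Module.Invertible T Q] :
    ∃ (n : ℕ) (i : T →ₗ[T] (Fin n → Q)) (p : (Fin n → Q) →ₗ[T] T), p ∘ₗ i = LinearMap.id := by
  obtain ⟨n, f, g, -, -, hfg⟩ :=
    Module.Finite.exists_comp_eq_id_of_projective T (Module.Dual T Q)
  let e : Module.Dual T Q ⊗[T] Q ≃ₗ[T] T := Module.Invertible.linearEquiv T Q
  let c : (Fin n → T) ⊗[T] Q ≃ₗ[T] (Fin n → Q) :=
    (TensorProduct.comm T _ _).trans (TensorProduct.piScalarRight T T Q (Fin n))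
  refine ⟨n, c.toLinearMap ∘ₗ (g.rTensor Q) ∘ₗ e.symm.toLinearMap,
    e.toLinearMap ∘ₗ (f.rTensor Q) ∘ₗ c.symm.toLinearMap, ?_⟩
  ext
  simp only [LinearMap.comp_apply, LinearEquiv.coe_coe, LinearEquiv.symm_apply_apply,
    LinearMap.id_apply]
  rw [← LinearMap.comp_apply (f.rTensor Q), ← LinearMap.rTensor_comp, hfg,
    LinearMap.rTensor_id, LinearMap.id_apply, LinearEquiv.apply_symm_apply]

/-- If a `T`-module `Q` is invertible over `T` and finite projective over `A`, then `T` is
finite projective over `A`. -/
theorem finite_projective_of_invertible [Module.Invertible T Q] [Module.Finite A Q]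
    [Module.Projective A Q] : Module.Finite A T ∧ Module.Projective A T := by
  obtain ⟨n, i, p, hpi⟩ := exists_split_of_invertible T Q
  have hpi' : ∀ t, p (i t) = t := fun t => LinearMap.congr_fun hpi t
  have hsurj : Function.Surjective (p.restrictScalars A) := fun t => ⟨i t, hpi' t⟩
  haveI : Module.Projective A (Fin n → Q) :=
    Module.Projective.of_equiv
      (DFinsupp.linearEquivFunOnFintype (R := A) (ι := Fin n) (M := fun _ => Q))
  exact ⟨Module.Finite.of_surjective (p.restrictScalars A) hsurj,
    Module.Projective.of_split (i.restrictScalars A) (p.restrictScalars A)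
      (LinearMap.ext fun t => hpi' t)⟩

end Summand

section Quot

variable (A : Type*) {R : Type*} [CommRing A] [CommRing R] [Algebra A R] (I : Ideal R)
  (P : Type*) [AddCommGroup P] [Module R P] [Module A P] [IsScalarTower A R P]

theorem isScalarTower_quot_smul_top :
    IsScalarTower A (R ⧸ I) (P ⧸ I • (⊤ : Submodule R P)) := by
  refine ⟨fun a s z => ?_⟩
  obtain ⟨r, rfl⟩ := Ideal.Quotient.mk_surjective s
  obtain ⟨n, rfl⟩ := Submodule.Quotient.mk_surjective _ z
  change (Ideal.Quotient.mk I (a • r)) • Submodule.Quotient.mk n =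
    a • ((Ideal.Quotient.mk I r) • Submodule.Quotient.mk n)
  rw [Module.Quotient.mk_smul_mk, Module.Quotient.mk_smul_mk, smul_assoc]
  rfl

theorem invertible_quot_smul_top [Module.Invertible R P] :
    Module.Invertible (R ⧸ I) (P ⧸ I • (⊤ : Submodule R P)) :=
  Module.Invertible.congr ((TensorProduct.quotTensorEquivQuotSMul P I).extendScalarsOfSurjective
    Ideal.Quotient.mk_surjective)

/-- **(C).** If `P` is an invertible `R`-module and `P ⧸ I P` is finite projective over `A`, then
`R ⧸ I` is finite projective over `A`, of the same rank. -/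
theorem quotient_finite_projective_of_smul_top [Module.Invertible R P]
    [Module.Finite A (P ⧸ I • (⊤ : Submodule R P))]
    [Module.Projective A (P ⧸ I • (⊤ : Submodule R P))] :
    Module.Finite A (R ⧸ I) ∧ Module.Projective A (R ⧸ I) ∧
      Module.rankAtStalk (R := A) (R ⧸ I) =
        Module.rankAtStalk (R := A) (P ⧸ I • (⊤ : Submodule R P)) := by
  haveI := invertible_quot_smul_top I P
  haveI := isScalarTower_quot_smul_top A I P
  obtain ⟨h1, h2⟩ := finite_projective_of_invertible A (R ⧸ I) (P ⧸ I • (⊤ : Submodule R P))
  exact ⟨h1, h2, (rankAtStalk_eq_of_invertible A (R ⧸ I) (P ⧸ I • (⊤ : Submodule R P))).symm⟩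

end Quot

end Fermat.Agent.S25.H671
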