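import Fermat.Agent.S25.H11.ACDefs
import Fermat.Agent.S25.H10.DegreeTwist

/-!
# S25 / ALGCHARTS, leaf ST3 (helper671): `H¹(O_{C_A})` is free of rank `g`

For a curve chart and any `k`-algebra `A`, the `A`-module
`H¹(unit_A) = (A ⊗ B₀₁) ⧸ (A ⊗ B₀ + A ⊗ B₁)` is `A ⊗[k] H` with `H = B₀₁ ⧸ (B₀ + B₁)`; hence it
is finite free of rank `g = dim_k H¹(unit_k)`.
-/

set_option autoImplicit false
set_option linter.style.haveILetI false
set_option linter.unusedSectionVars false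

universe u

open scoped TensorProduct

namespace Fermat.Agent.S25.H671

noncomputable section

open Fermat.Agent.S25 Fermat.Agent.S25.H11

variable {k : Type u} [Field k]
  {B₀ B₁ B₀₁ : Type u} [CommRing B₀] [CommRing B₁] [CommRing B₀₁]
  [Algebra k B₀] [Algebra k B₁] [Algebra k B₀₁] [Algebra B₀ B₀₁] [Algebra B₁ B₀₁]
  [IsScalarTower k B₀ B₀₁] [IsScalarTower k B₁ B₀₁]
  {x : B₀} {y : B₁} {e : B₁ →ₐ[k] k}

variable (k B₀ B₁ B₀₁) in
/-- The Čech differential of the structure sheaf over `k`: `(b₀, b₁) ↦ b₀ - b₁`. -/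
def cechK : (B₀ × B₁) →ₗ[k] B₀₁ :=
  (Algebra.linearMap B₀ B₀₁ |>.restrictScalars k).coprod
    (-(Algebra.linearMap B₁ B₀₁ |>.restrictScalars k))

omit [IsScalarTower k B₀ B₀₁] [IsScalarTower k B₁ B₀₁] in
@[simp] theorem cechK_apply [IsScalarTower k B₀ B₀₁] [IsScalarTower k B₁ B₀₁] (p : B₀ × B₁) :
    cechK k B₀ B₁ B₀₁ p = algebraMap B₀ B₀₁ p.1 - algebraMap B₁ B₀₁ p.2 := by
  simp [cechK, sub_eq_add_neg]

variable (k B₀ B₁ B₀₁) in
/-- `H¹(O_C)` as a `k`-vector space: `B₀₁ ⧸ (B₀ + B₁)`. -/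
abbrev HK : Type u := B₀₁ ⧸ LinearMap.range (cechK k B₀ B₁ B₀₁)

section

variable (A : Type u) [CommRing A] [Algebra k A]

theorem unitH1_cech_apply (p : (A ⊗[k] B₀) × (A ⊗[k] B₁)) :
    (GlueDatum.unit A (A ⊗[k] B₀) (A ⊗[k] B₁) (A ⊗[k] B₀₁)).cech p =
      algebraMap (A ⊗[k] B₀) (A ⊗[k] B₀₁) p.1 - algebraMap (A ⊗[k] B₁) (A ⊗[k] B₀₁) p.2 := by
  simp only [GlueDatum.cech, sub_eq_add_neg]
  rfl

/-- The base change of the quotient map `B₀₁ → H`. -/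
def piA : A ⊗[k] B₀₁ →ₗ[A] A ⊗[k] HK k B₀ B₁ B₀₁ :=
  (LinearMap.range (cechK k B₀ B₁ B₀₁)).mkQ.baseChange A

theorem piA_tmul (a : A) (b : B₀₁) :
    piA (B₀ := B₀) (B₁ := B₁) A (a ⊗ₜ[k] b) =
      a ⊗ₜ[k] (LinearMap.range (cechK k B₀ B₁ B₀₁)).mkQ b := rfl

theorem piA_surjective : Function.Surjective (piA (k := k) (B₀ := B₀) (B₁ := B₁) (B₀₁ := B₀₁) A) := by
  have h : Function.Surjective ((LinearMap.range (cechK k B₀ B₁ B₀₁)).mkQ.lTensor A) :=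
    LinearMap.lTensor_surjective A (Submodule.mkQ_surjective _)
  intro z
  obtain ⟨w, hw⟩ := h z
  exact ⟨w, hw⟩

theorem range_unit_cech_eq_ker :
    LinearMap.range (GlueDatum.unit A (A ⊗[k] B₀) (A ⊗[k] B₁) (A ⊗[k] B₀₁)).cech =
      LinearMap.ker (piA (k := k) (B₀ := B₀) (B₁ := B₁) (B₀₁ := B₀₁) A) := by
  have hex : Function.Exact ((cechK k B₀ B₁ B₀₁).lTensor A)
      ((LinearMap.range (cechK k B₀ B₁ B₀₁)).mkQ.lTensor A) :=
    lTensor_exact A (LinearMap.exact_map_mkQ_range _) (Submodule.mkQ_surjective _)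
  have hker : ∀ z : A ⊗[k] B₀₁, z ∈ LinearMap.ker (piA (k := k) (B₀ := B₀) (B₁ := B₁) A) ↔
      z ∈ Set.range ((cechK k B₀ B₁ B₀₁).lTensor A) := by
    intro z
    rw [LinearMap.mem_ker, ← hex z]
    rfl
  apply le_antisymm
  · rintro _ ⟨⟨u, v⟩, rfl⟩
    change piA (k := k) (B₀ := B₀) (B₁ := B₁) A
      ((GlueDatum.unit A (A ⊗[k] B₀) (A ⊗[k] B₁) (A ⊗[k] B₀₁)).cech (u, v)) = 0
    have hcech := unitH1_cech_apply (k := k) (B₀ := B₀) (B₁ := B₁) (B₀₁ := B₀₁) A (u, v)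
    refine (congrArg (piA (k := k) (B₀ := B₀) (B₁ := B₁) A) hcech).trans ?_
    rw [map_sub, sub_eq_zero]
    have h0 : ∀ u : A ⊗[k] B₀, piA (k := k) (B₀ := B₀) (B₁ := B₁) A
        (algebraMap (A ⊗[k] B₀) (A ⊗[k] B₀₁) u) = 0 := by
      intro u
      induction u using TensorProduct.induction_on with
      | zero => simp
      | tmul a b =>
        rw [H250.algebraMap_tensor_tmul, piA_tmul]
        have : (LinearMap.range (cechK k B₀ B₁ B₀₁)).mkQ (algebraMap B₀ B₀₁ b) = 0 := by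
          rw [Submodule.mkQ_apply, Submodule.Quotient.mk_eq_zero]
          exact ⟨(b, 0), by simp⟩
        rw [this, TensorProduct.tmul_zero]
      | add z w hz hw => rw [map_add, map_add, hz, hw, add_zero]
    have h1 : ∀ v : A ⊗[k] B₁, piA (k := k) (B₀ := B₀) (B₁ := B₁) A
        (algebraMap (A ⊗[k] B₁) (A ⊗[k] B₀₁) v) = 0 := by
      intro v
      induction v using TensorProduct.induction_on with
      | zero => simp
      | tmul a b =>
        rw [H250.algebraMap_tensor_tmul, piA_tmul]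
        have : (LinearMap.range (cechK k B₀ B₁ B₀₁)).mkQ (algebraMap B₁ B₀₁ b) = 0 := by
          rw [Submodule.mkQ_apply, Submodule.Quotient.mk_eq_zero]
          exact ⟨(0, -b), by simp⟩
        rw [this, TensorProduct.tmul_zero]
      | add z w hz hw => rw [map_add, map_add, hz, hw, add_zero]
    exact (h0 u).trans (h1 v).symm
  · have hall : ∀ w : A ⊗[k] (B₀ × B₁), (cechK k B₀ B₁ B₀₁).lTensor A w ∈
        LinearMap.range (GlueDatum.unit A (A ⊗[k] B₀) (A ⊗[k] B₁) (A ⊗[k] B₀₁)).cech := by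
      intro w
      induction w using TensorProduct.induction_on with
      | zero => exact Submodule.zero_mem _
      | tmul a p =>
        refine ⟨(a ⊗ₜ[k] p.1, a ⊗ₜ[k] p.2), ?_⟩
        refine (unitH1_cech_apply (k := k) (B₀ := B₀) (B₁ := B₁) (B₀₁ := B₀₁) A _).trans ?_
        rw [H250.algebraMap_tensor_tmul, H250.algebraMap_tensor_tmul,
          LinearMap.lTensor_tmul, cechK_apply, TensorProduct.tmul_sub]
      | add z w hz hw =>
        have h := Submodule.add_mem _ hz hw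
        have e : (LinearMap.lTensor A (cechK k B₀ B₁ B₀₁)) (z + w) =
            (LinearMap.lTensor A (cechK k B₀ B₁ B₀₁)) z +
              (LinearMap.lTensor A (cechK k B₀ B₁ B₀₁)) w := map_add _ _ _
        exact e ▸ h
    intro z hz
    obtain ⟨w, rfl⟩ := (hker z).1 hz
    exact hall w

/-- `piA` as a map on `N₀₁` of the unit gluing datum. -/
def unitPi : (GlueDatum.unit A (A ⊗[k] B₀) (A ⊗[k] B₁) (A ⊗[k] B₀₁)).N₀₁ →ₗ[A]
    A ⊗[k] HK k B₀ B₁ B₀₁ :=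
  show (A ⊗[k] B₀₁) →ₗ[A] A ⊗[k] HK k B₀ B₁ B₀₁ from piA A

theorem range_unit_cech_eq_ker_unitPi :
    LinearMap.range (GlueDatum.unit A (A ⊗[k] B₀) (A ⊗[k] B₁) (A ⊗[k] B₀₁)).cech =
      LinearMap.ker (unitPi (k := k) (B₀ := B₀) (B₁ := B₁) (B₀₁ := B₀₁) A) :=
  range_unit_cech_eq_ker A

theorem unitPi_surjective :
    Function.Surjective (unitPi (k := k) (B₀ := B₀) (B₁ := B₁) (B₀₁ := B₀₁) A) :=
  piA_surjective A

/-- `H¹(unit_A) ≃ A ⊗[k] H`. -/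
def unitH1Equiv :
    (GlueDatum.unit A (A ⊗[k] B₀) (A ⊗[k] B₁) (A ⊗[k] B₀₁)).H1 ≃ₗ[A] A ⊗[k] HK k B₀ B₁ B₀₁ :=
  LinearEquiv.ofBijective
    (Submodule.liftQ _ (unitPi (k := k) (B₀ := B₀) (B₁ := B₁) (B₀₁ := B₀₁) A)
      (range_unit_cech_eq_ker_unitPi A).le)
    ⟨by
      rw [← LinearMap.ker_eq_bot]
      exact Submodule.ker_liftQ_eq_bot _ _ _ (range_unit_cech_eq_ker_unitPi A).ge,
     by
      rw [← LinearMap.range_eq_top, Submodule.range_liftQ, LinearMap.range_eq_top]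
      exact unitPi_surjective A⟩

end

/-- `H = B₀₁ ⧸ (B₀ + B₁)` is finite-dimensional. -/
theorem finite_HK (hC : IsCurveChart k B₀ B₁ B₀₁ x y e) : Module.Finite k (HK k B₀ B₁ B₀₁) := by
  haveI := H10.finite_H1 hC (GlueDatum.unit k (k ⊗[k] B₀) (k ⊗[k] B₁) (k ⊗[k] B₀₁))
  exact Module.Finite.equiv ((unitH1Equiv (k := k) (B₀ := B₀) (B₁ := B₁) (B₀₁ := B₀₁) k).trans
    (TensorProduct.lid k _))

theorem finrank_HK :
    Module.finrank k (HK k B₀ B₁ B₀₁) =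
      Module.finrank k (GlueDatum.unit k (k ⊗[k] B₀) (k ⊗[k] B₁) (k ⊗[k] B₀₁)).H1 :=
  (LinearEquiv.finrank_eq ((unitH1Equiv (k := k) (B₀ := B₀) (B₁ := B₁) (B₀₁ := B₀₁) k).trans
    (TensorProduct.lid k _))).symm

/-- **`H¹(O_{C_A})` is finite free of rank `g`.** -/
theorem unit_H1_finite_free (hC : IsCurveChart k B₀ B₁ B₀₁ x y e) (A : Type u) [CommRing A]
    [Algebra k A] :
    Module.Finite A (GlueDatum.unit A (A ⊗[k] B₀) (A ⊗[k] B₁) (A ⊗[k] B₀₁)).H1 ∧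
    Module.Free A (GlueDatum.unit A (A ⊗[k] B₀) (A ⊗[k] B₁) (A ⊗[k] B₀₁)).H1 ∧
    ∀ p : PrimeSpectrum A, Module.rankAtStalk (R := A)
      (GlueDatum.unit A (A ⊗[k] B₀) (A ⊗[k] B₁) (A ⊗[k] B₀₁)).H1 p =
        Module.finrank k (GlueDatum.unit k (k ⊗[k] B₀) (k ⊗[k] B₁) (k ⊗[k] B₀₁)).H1 := by
  haveI := finite_HK hC
  have e := unitH1Equiv (k := k) (B₀ := B₀) (B₁ := B₁) (B₀₁ := B₀₁) A
  haveI : Module.Finite A (GlueDatum.unit A (A ⊗[k] B₀) (A ⊗[k] B₁) (A ⊗[k] B₀₁)).H1 :=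
    Module.Finite.equiv e.symm
  haveI : Module.Free A (GlueDatum.unit A (A ⊗[k] B₀) (A ⊗[k] B₁) (A ⊗[k] B₀₁)).H1 :=
    Module.Free.of_equiv e.symm
  refine ⟨inferInstance, inferInstance, fun p => ?_⟩
  haveI : Nontrivial A := p.nontrivial
  rw [Module.rankAtStalk_eq_finrank_of_free, e.finrank_eq, ← finrank_HK]
  exact Module.finrank_baseChange

end

end Fermat.Agent.S25.H671
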