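import Fermat.Agent.S25.H671.ACStage3
import Fermat.Agent.S25.H791.ACPointBC
import Fermat.Agent.S25.H446.PtIdeal

/-!
# S25 / ALGCHARTS, leaf ST3 (helper671): `Leaf.Stage3` from CORE alone

`stage3_of_core : Stage3Core k B₀ B₁ B₀₁ → H11.Leaf.Stage3 k B₀ B₁ B₀₁`, where `Stage3Core` is the
statement "the divisor `D' = div s - Σq` of a generator is a point of `Hilb^g`".  Uses
`H791.p2_baseChange` (`P2` is stable under base change) and `H446.ptIdeal_invertible`.
-/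

set_option autoImplicit false
set_option linter.unusedSectionVars false
set_option linter.style.haveILetI false

universe u

open scoped TensorProduct

namespace Fermat.Agent.S25.H671

open Fermat.Agent.S25 Fermat.Agent.S25.H11

variable {k : Type u} [Field k] [IsAlgClosed k]
  {B₀ B₁ B₀₁ : Type u} [CommRing B₀] [CommRing B₁] [CommRing B₀₁]
  [Algebra k B₀] [Algebra k B₁] [Algebra k B₀₁] [Algebra B₀ B₀₁] [Algebra B₁ B₀₁]
  [IsScalarTower k B₀ B₀₁] [IsScalarTower k B₁ B₀₁]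
  {x : B₀} {y : B₁} {e : B₁ →ₐ[k] k}

/-- `P2` is stable under base change along any `ψ`. -/
theorem p2_stable (hC : IsCurveChart k B₀ B₁ B₀₁ x y e) (n : ℕ) {m : ℕ}
    (q : Fin m → (B₀ →ₐ[k] k)) {A A' : Type u} [CommRing A] [Algebra k A] [CommRing A']
    [Algebra k A'] (ψ : A →ₐ[k] A') {G : CurveGD k B₀ B₁ B₀₁ A} {G' : CurveGD k B₀ B₁ B₀₁ A'}
    (h : CurveGD.IsBC ψ G G') (h2 : P2 x y n q G) : P2 x y n q G' := by
  letI : Algebra A A' := ψ.toRingHom.toAlgebra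
  haveI : IsScalarTower k A A' := IsScalarTower.of_algebraMap_eq' ψ.comp_algebraMap.symm
  exact H791.p2_baseChange hC n q ψ (fun _ => rfl) h h2

variable (k B₀ B₁ B₀₁) in
/-- **CORE** of stage 3: for a gluing datum with `P2`, the divisor `D' = div s - Σq` of a
generator `s` is a point of `Hilb^g`. -/
def Stage3Core : Prop :=
  ∀ (x : B₀) (y : B₁) (e : B₁ →ₐ[k] k), IsCurveChart k B₀ B₁ B₀₁ x y e →
  ∀ (i : ChartIndex k B₀), i.Numeric B₀₁ y →
  ∀ (A : Type u) [CommRing A] [Algebra k A] (G : CurveGD k B₀ B₁ B₀₁ A),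
    G.Rigidifiable e → G.Deg0 → P2 x y i.n i.q G →
    ∃ (s : G.N₀ × G.N₁) (I' : Ideal (A ⊗[k] B₀)), IsGen x y i.n i.q G s ∧
      H491.IsHilb i.g I' ∧ Submodule.span (A ⊗[k] B₀) {s.1} =
        (I' * ptIdeal i.q A) • (⊤ : Submodule (A ⊗[k] B₀) G.N₀)

/-- **ST3 from CORE.** -/
theorem stage3_of_core (hcore : Stage3Core k B₀ B₁ B₀₁) : H11.Leaf.Stage3 k B₀ B₁ B₀₁ := by
  intro x y e hC i hnum A _ _ G hrig hdeg h2
  exact stage3_locus_of hC i G (fun A' _ _ ψ G' hbc => p2_stable hC i.n i.q ψ hbc h2)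
    (fun A' _ _ => H446.ptIdeal_invertible A' hC i.q)
    (hcore x y e hC i hnum A G hrig hdeg h2)

end Fermat.Agent.S25.H671
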