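import Mathlib

/-!
# S25 / block HILB (helper671): base change of the diagonal ideal

For `k`-algebras `A`, `B` with `A` flat over `k`, the diagonal ideal of `A ⊗[k] B` over `A` is the
base change of the diagonal ideal of `B` over `k` along
`B ⊗[k] B → (A ⊗[k] B) ⊗[A] (A ⊗[k] B)`; in particular it is an invertible module if the diagonal
ideal of `B` over `k` is (`kaehlerIdeal_baseChange_invertible`).
-/

set_option autoImplicit false

open TensorProduct

namespace Fermat.Agent.S25.H671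

section BaseChange

variable (k A B : Type*) [CommRing k] [CommRing A] [CommRing B] [Algebra k A] [Algebra k B]

/-- `b ⊗ b' ↦ (1 ⊗ b) ⊗ (1 ⊗ b')`, from `B ⊗[k] B` to `(A ⊗ B) ⊗[A] (A ⊗ B)`. -/
noncomputable def diagBC : B ⊗[k] B →ₐ[k] (A ⊗[k] B) ⊗[A] (A ⊗[k] B) :=
  Algebra.TensorProduct.lift
    (((Algebra.TensorProduct.includeLeft :
        (A ⊗[k] B) →ₐ[A] (A ⊗[k] B) ⊗[A] (A ⊗[k] B)).restrictScalars k).comp
      (Algebra.TensorProduct.includeRight : B →ₐ[k] A ⊗[k] B))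
    (((Algebra.TensorProduct.includeRight :
        (A ⊗[k] B) →ₐ[A] (A ⊗[k] B) ⊗[A] (A ⊗[k] B)).restrictScalars k).comp
      (Algebra.TensorProduct.includeRight : B →ₐ[k] A ⊗[k] B))
    (fun _ _ => Commute.all _ _)

@[simp]
theorem diagBC_tmul (b b' : B) :
    diagBC k A B (b ⊗ₜ[k] b') = ((1 : A) ⊗ₜ[k] b) ⊗ₜ[A] ((1 : A) ⊗ₜ[k] b') := by
  simp [diagBC]

theorem distribBaseChange_eq_smul_diagBC (a : A) (s : B ⊗[k] B) :
    TensorProduct.AlgebraTensorModule.distribBaseChange k A B B (a ⊗ₜ[k] s)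
      = a • diagBC k A B s := by
  induction s with
  | zero => simp
  | tmul b b' =>
    rw [TensorProduct.AlgebraTensorModule.distribBaseChange_tmul, diagBC_tmul,
      TensorProduct.smul_tmul', TensorProduct.smul_tmul', smul_eq_mul, mul_one]
  | add x y hx hy =>
    rw [TensorProduct.tmul_add, map_add, hx, hy, map_add, smul_add]

/-- The algebra structure on `(A ⊗ B) ⊗[A] (A ⊗ B)` over `B ⊗[k] B`. -/
noncomputable abbrev diagBCAlgebra : Algebra (B ⊗[k] B) ((A ⊗[k] B) ⊗[A] (A ⊗[k] B)) :=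
  (diagBC k A B).toRingHom.toAlgebra

attribute [local instance] diagBCAlgebra

theorem diagBC_algebraMap (s : B ⊗[k] B) :
    algebraMap (B ⊗[k] B) ((A ⊗[k] B) ⊗[A] (A ⊗[k] B)) s = diagBC k A B s := rfl

theorem diagBC_smul_def (s : B ⊗[k] B) (x : (A ⊗[k] B) ⊗[A] (A ⊗[k] B)) :
    s • x = diagBC k A B s * x := rfl

/-- multiplication commutes with `diagBC`. -/
theorem lmul'_diagBC (s : B ⊗[k] B) :
    Algebra.TensorProduct.lmul' A (diagBC k A B s)
      = (1 : A) ⊗ₜ[k] (Algebra.TensorProduct.lmul' k s) := by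
  induction s with
  | zero => simp
  | tmul b b' => simp
  | add x y hx hy => simp only [map_add, hx, hy, TensorProduct.tmul_add]

/-- The comparison map `S_A ⊗[S] J → S_A`. -/
noncomputable def diagBCMap :
    ((A ⊗[k] B) ⊗[A] (A ⊗[k] B)) ⊗[B ⊗[k] B] (KaehlerDifferential.ideal k B)
      →ₗ[(A ⊗[k] B) ⊗[A] (A ⊗[k] B)] ((A ⊗[k] B) ⊗[A] (A ⊗[k] B)) :=
  LinearMap.liftBaseChange _
    ((Algebra.linearMap (B ⊗[k] B) ((A ⊗[k] B) ⊗[A] (A ⊗[k] B))) ∘ₗ
      (KaehlerDifferential.ideal k B).subtype)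

theorem diagBCMap_tmul (x : (A ⊗[k] B) ⊗[A] (A ⊗[k] B)) (j : KaehlerDifferential.ideal k B) :
    diagBCMap k A B (x ⊗ₜ j) = x * diagBC k A B (j : B ⊗[k] B) := by
  simp [diagBCMap, diagBC_algebraMap]


theorem range_diagBCMap :
    LinearMap.range (diagBCMap k A B) = KaehlerDifferential.ideal A (A ⊗[k] B) := by
  apply le_antisymm
  · rintro _ ⟨x, rfl⟩
    induction x with
    | zero => simp
    | tmul x j =>
      rw [diagBCMap_tmul]
      refine Ideal.mul_mem_left _ _ ?_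
      change Algebra.TensorProduct.lmul' A (diagBC k A B (j : B ⊗[k] B)) = 0
      rw [lmul'_diagBC]
      have : Algebra.TensorProduct.lmul' k (j : B ⊗[k] B) = 0 := j.2
      rw [this, TensorProduct.tmul_zero]
    | add x y hx hy =>
      rw [map_add]
      exact add_mem hx hy
  · rw [← KaehlerDifferential.span_range_eq_ideal, Ideal.span_le]
    rintro _ ⟨r, rfl⟩
    change _ ∈ LinearMap.range (diagBCMap k A B)
    induction r with
    | zero => simp
    | tmul a b =>
      have hmem : (1 : B) ⊗ₜ[k] b - b ⊗ₜ[k] (1 : B) ∈ KaehlerDifferential.ideal k B :=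
        KaehlerDifferential.one_smul_sub_smul_one_mem_ideal k b
      refine ⟨(a • (1 : (A ⊗[k] B) ⊗[A] (A ⊗[k] B))) ⊗ₜ ⟨_, hmem⟩, ?_⟩
      rw [diagBCMap_tmul]
      have e1 : a • (((1 : A) ⊗ₜ[k] (1 : B)) ⊗ₜ[A] ((1 : A) ⊗ₜ[k] b))
          = (1 : A ⊗[k] B) ⊗ₜ[A] (a ⊗ₜ[k] b) := by
        rw [← Algebra.TensorProduct.one_def, TensorProduct.smul_tmul', TensorProduct.smul_tmul,
          TensorProduct.smul_tmul', smul_eq_mul, mul_one]
      have e2 : a • (((1 : A) ⊗ₜ[k] b) ⊗ₜ[A] ((1 : A) ⊗ₜ[k] (1 : B)))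
          = (a ⊗ₜ[k] b) ⊗ₜ[A] (1 : A ⊗[k] B) := by
        rw [← Algebra.TensorProduct.one_def, TensorProduct.smul_tmul', TensorProduct.smul_tmul',
          smul_eq_mul, mul_one]
      change _ = (1 : A ⊗[k] B) ⊗ₜ[A] (a ⊗ₜ[k] b) - (a ⊗ₜ[k] b) ⊗ₜ[A] (1 : A ⊗[k] B)
      simp only [map_sub, diagBC_tmul, smul_mul_assoc, one_mul, smul_sub]
      rw [e1, e2]
    | add x y hx hy =>
      have : (1 : A ⊗[k] B) ⊗ₜ[A] (x + y) - (x + y) ⊗ₜ[A] (1 : A ⊗[k] B)
          = ((1 : A ⊗[k] B) ⊗ₜ[A] x - x ⊗ₜ[A] (1 : A ⊗[k] B))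
            + ((1 : A ⊗[k] B) ⊗ₜ[A] y - y ⊗ₜ[A] (1 : A ⊗[k] B)) := by
        rw [TensorProduct.tmul_add, TensorProduct.add_tmul]; abel
      change (1 : A ⊗[k] B) ⊗ₜ[A] (x + y) - (x + y) ⊗ₜ[A] (1 : A ⊗[k] B) ∈ _
      rw [this]
      exact add_mem hx hy


theorem diagBC_isScalarTower :
    IsScalarTower k (B ⊗[k] B) ((A ⊗[k] B) ⊗[A] (A ⊗[k] B)) :=
  IsScalarTower.of_algebraMap_eq fun c => by
    rw [diagBC_algebraMap, AlgHom.commutes]

attribute [local instance] diagBC_isScalarTower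

/-- `a ⊗ j ↦ (a • 1) ⊗ j`. -/
noncomputable def diagBCFirst :
    A ⊗[k] (KaehlerDifferential.ideal k B) →ₗ[A]
      ((A ⊗[k] B) ⊗[A] (A ⊗[k] B)) ⊗[B ⊗[k] B] (KaehlerDifferential.ideal k B) :=
  LinearMap.liftBaseChange A
    ((TensorProduct.mk (B ⊗[k] B) ((A ⊗[k] B) ⊗[A] (A ⊗[k] B))
      (KaehlerDifferential.ideal k B) 1).restrictScalars k)

theorem diagBCFirst_tmul (a : A) (j : KaehlerDifferential.ideal k B) :
    diagBCFirst k A B (a ⊗ₜ j) = (a • (1 : (A ⊗[k] B) ⊗[A] (A ⊗[k] B))) ⊗ₜ j := by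
  simp [diagBCFirst, TensorProduct.smul_tmul']


theorem diagBCFirst_surjective : Function.Surjective (diagBCFirst k A B) := by
  intro x
  induction x with
  | zero => exact ⟨0, map_zero _⟩
  | add x y hx hy =>
    obtain ⟨x', rfl⟩ := hx
    obtain ⟨y', rfl⟩ := hy
    exact ⟨x' + y', map_add _ _ _⟩
  | tmul s j =>
    obtain ⟨z, rfl⟩ := (TensorProduct.AlgebraTensorModule.distribBaseChange k A B B).surjective s
    induction z with
    | zero => exact ⟨0, by simp⟩
    | add x y hx hy =>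
      obtain ⟨x', hx'⟩ := hx
      obtain ⟨y', hy'⟩ := hy
      exact ⟨x' + y', by rw [map_add, hx', hy', map_add, TensorProduct.add_tmul]⟩
    | tmul a t =>
      refine ⟨a ⊗ₜ (t • j), ?_⟩
      rw [diagBCFirst_tmul, distribBaseChange_eq_smul_diagBC, ← TensorProduct.smul_tmul]
      congr 1
      rw [diagBC_smul_def, mul_smul_comm, mul_one]

theorem diagBCMap_comp_first (y : A ⊗[k] (KaehlerDifferential.ideal k B)) :
    diagBCMap k A B (diagBCFirst k A B y)
      = TensorProduct.AlgebraTensorModule.distribBaseChange k A B B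
          ((KaehlerDifferential.ideal k B).subtype.restrictScalars k |>.lTensor A y) := by
  induction y with
  | zero => simp
  | add x y hx hy => simp only [map_add, hx, hy]
  | tmul a j =>
    rw [diagBCFirst_tmul, diagBCMap_tmul, LinearMap.lTensor_tmul, smul_mul_assoc, one_mul]
    exact (distribBaseChange_eq_smul_diagBC k A B a j).symm

theorem diagBCMap_injective [Module.Flat k A] : Function.Injective (diagBCMap k A B) := by
  rw [injective_iff_map_eq_zero]
  intro x hx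
  obtain ⟨y, rfl⟩ := diagBCFirst_surjective k A B x
  rw [diagBCMap_comp_first, LinearEquiv.map_eq_zero_iff] at hx
  have hinj : Function.Injective
      ((KaehlerDifferential.ideal k B).subtype.restrictScalars k |>.lTensor A) :=
    Module.Flat.lTensor_preserves_injective_linearMap _ (Submodule.subtype_injective _)
  have : y = 0 := hinj (by rw [hx, map_zero])
  rw [this, map_zero]

/-- The diagonal ideal of `A ⊗[k] B` over `A` is the base change of the diagonal ideal of `B`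
over `k`. -/
noncomputable def diagBCEquiv [Module.Flat k A] :
    (((A ⊗[k] B) ⊗[A] (A ⊗[k] B)) ⊗[B ⊗[k] B] (KaehlerDifferential.ideal k B))
      ≃ₗ[(A ⊗[k] B) ⊗[A] (A ⊗[k] B)] KaehlerDifferential.ideal A (A ⊗[k] B) :=
  (LinearEquiv.ofInjective _ (diagBCMap_injective k A B)).trans
    (LinearEquiv.ofEq _ _ (range_diagBCMap k A B))

/-- **Base change of the diagonal.** If the diagonal ideal of `B` over `k` is invertible, so is
the diagonal ideal of `A ⊗[k] B` over `A` (for `A` flat over `k`, e.g. `k` a field). -/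
theorem kaehlerIdeal_baseChange_invertible [Module.Flat k A]
    [Module.Invertible (B ⊗[k] B) (KaehlerDifferential.ideal k B)] :
    Module.Invertible ((A ⊗[k] B) ⊗[A] (A ⊗[k] B)) (KaehlerDifferential.ideal A (A ⊗[k] B)) :=
  Module.Invertible.congr (diagBCEquiv k A B)

end BaseChange

end Fermat.Agent.S25.H671
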