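import Mathlib

/-!
# S25 / block HILB / leaf H2, part 1 (helper671)

Abstract commutative algebra: a nonzero finitely generated ideal `I` of a domain `S`
which is "cyclic modulo `𝔪`" at every maximal ideal `𝔪 ⊇ I` is an invertible `S`-module.
-/

namespace Fermat.Agent.S25.H671

open scoped nonZeroDivisors

variable {S : Type*} [CommRing S]

/-- Relative Nakayama: if `I` is f.g. and `I ≤ (t) ⊔ 𝔪 * I` then some `u ≡ 1 mod 𝔪`
multiplies `I` into `(t)`. -/
theorem exists_mul_le_span_of_le_sup_mul (I 𝔪 : Ideal S) (hfg : I.FG) (t : S)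
    (h : I ≤ Ideal.span {t} ⊔ 𝔪 * I) :
    ∃ u : S, u - 1 ∈ 𝔪 ∧ ∀ y ∈ I, u * y ∈ Ideal.span {t} := by
  classical
  -- work in the quotient module `S ⧸ (t)`
  let T : Submodule S S := Ideal.span {t}
  let N : Submodule S (S ⧸ T) := Submodule.map T.mkQ I
  have hN : N.FG := Submodule.FG.map _ hfg
  have hle : N ≤ 𝔪 • N := by
    rintro _ ⟨y, hy, rfl⟩
    have hy' := h hy
    obtain ⟨a, ha, b, hb, rfl⟩ := Submodule.mem_sup.mp hy'
    have ha0 : T.mkQ a = 0 := (Submodule.Quotient.mk_eq_zero T).mpr ha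
    rw [map_add, ha0, zero_add]
    -- `b ∈ 𝔪 * I`
    have hb' : b ∈ 𝔪 • I := by rwa [Ideal.smul_eq_mul]
    refine Submodule.smul_induction_on hb' ?_ ?_
    · intro r hr n hn
      rw [map_smul]
      exact Submodule.smul_mem_smul hr ⟨n, hn, rfl⟩
    · intro x y hx hy
      rw [map_add]
      exact add_mem hx hy
  obtain ⟨r, hr1, hr⟩ := Submodule.exists_sub_one_mem_and_smul_eq_zero_of_fg_of_le_smul 𝔪 N hN hle
  refine ⟨r, hr1, fun y hy => ?_⟩
  have := hr (T.mkQ y) ⟨y, hy, rfl⟩
  rw [← map_smul, Submodule.mkQ_apply, Submodule.Quotient.mk_eq_zero] at this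
  simpa [smul_eq_mul] using this

end Fermat.Agent.S25.H671

namespace Fermat.Agent.S25.H671

variable {S : Type*} [CommRing S]

/-- A nonzero finitely generated ideal of a domain which is cyclic modulo `𝔪` at every maximal
ideal `𝔪` containing it is an invertible module. -/
theorem invertible_of_locally_cyclic [IsDomain S] (I : Ideal S) (hfg : I.FG) (hne : I ≠ ⊥)
    (h : ∀ 𝔪 : Ideal S, 𝔪.IsMaximal → I ≤ 𝔪 → ∃ t ∈ I, I ≤ Ideal.span {t} ⊔ 𝔪 * I) :
    Module.Invertible S I := by
  classical
  let K := FractionRing S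
  have hinj : Function.Injective (algebraMap S K) := IsFractionRing.injective S K
  let I' : Submodule S K := Submodule.map (Algebra.linearMap S K) I
  let J : Submodule S K := 1 / I'
  have hle : I' * J ≤ 1 := Submodule.mul_one_div_le_one
  have hJmem : ∀ x : K, (∀ y ∈ I, x * algebraMap S K y ∈ (1 : Submodule S K)) → x ∈ J := by
    intro x hx
    rw [Submodule.mem_div_iff_forall_mul_mem]
    rintro _ ⟨y, hy, rfl⟩
    exact hx y hy
  have hI'mem : ∀ y ∈ I, algebraMap S K y ∈ I' := fun y hy => ⟨y, hy, rfl⟩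
  -- the ideal of all `s` with `s ∈ I' * J`
  let 𝔞 : Ideal S := Submodule.comap (Algebra.linearMap S K) (I' * J)
  have h𝔞 : 𝔞 = ⊤ := by
    by_contra hne𝔞
    obtain ⟨𝔪, h𝔪, h𝔞𝔪⟩ := Ideal.exists_le_maximal 𝔞 hne𝔞
    by_cases hI𝔪 : I ≤ 𝔪
    · obtain ⟨t, htI, ht⟩ := h 𝔪 h𝔪 hI𝔪
      obtain ⟨u, hu1, hu⟩ := exists_mul_le_span_of_le_sup_mul I 𝔪 hfg t ht
      have hu𝔪 : u ∉ 𝔪 := by
        intro hu𝔪
        have : (1 : S) ∈ 𝔪 := by
          have := 𝔪.sub_mem hu𝔪 hu1
          simpa using this
        exact h𝔪.ne_top ((Ideal.eq_top_iff_one 𝔪).mpr this)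
      have hu0 : u ≠ 0 := fun h0 => hu𝔪 (h0 ▸ 𝔪.zero_mem)
      have ht0 : t ≠ 0 := by
        rintro rfl
        apply hne
        rw [eq_bot_iff]
        intro y hy
        have := hu y hy
        rw [Ideal.span_singleton_zero, Ideal.mem_bot] at this
        rcases mul_eq_zero.mp this with h1 | h1
        · exact absurd h1 hu0
        · simpa using h1
      have htK : algebraMap S K t ≠ 0 := fun h0 => ht0 (hinj (by simpa using h0))
      let x : K := algebraMap S K u / algebraMap S K t
      have hxJ : x ∈ J := by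
        apply hJmem
        intro y hy
        obtain ⟨s, hs⟩ := Ideal.mem_span_singleton'.mp (hu y hy)
        rw [Submodule.mem_one]
        refine ⟨s, ?_⟩
        have : algebraMap S K s * algebraMap S K t = algebraMap S K u * algebraMap S K y := by
          rw [← map_mul, ← map_mul, hs]
        show (algebraMap S K) s = algebraMap S K u / algebraMap S K t * algebraMap S K y
        rw [div_mul_eq_mul_div, eq_div_iff htK]
        exact this
      have hu𝔞 : u ∈ 𝔞 := by
        show algebraMap S K u ∈ I' * J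
        have : algebraMap S K u = algebraMap S K t * x := by
          show algebraMap S K u = algebraMap S K t * (algebraMap S K u / algebraMap S K t)
          rw [mul_div_cancel₀ _ htK]
        rw [this]
        exact Submodule.mul_mem_mul (hI'mem t htI) hxJ
      exact hu𝔪 (h𝔞𝔪 hu𝔞)
    · obtain ⟨t, htI, ht𝔪⟩ := SetLike.not_le_iff_exists.mp hI𝔪
      have h1J : (1 : K) ∈ J := by
        apply hJmem
        intro y hy
        rw [one_mul, Submodule.mem_one]
        exact ⟨y, rfl⟩
      have ht𝔞 : t ∈ 𝔞 := by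
        show algebraMap S K t ∈ I' * J
        have := Submodule.mul_mem_mul (hI'mem t htI) h1J
        simpa using this
      exact ht𝔪 (h𝔞𝔪 ht𝔞)
  have hmul : I' * J = 1 := by
    refine le_antisymm hle ?_
    rw [Submodule.one_le]
    have : (1 : S) ∈ 𝔞 := by rw [h𝔞]; trivial
    have h1 : algebraMap S K 1 ∈ I' * J := this
    simpa using h1
  let U : (Submodule S K)ˣ := Units.mkOfMulEqOne I' J hmul
  have hU : Module.Invertible S (U : Submodule S K) := inferInstance
  have e : (U : Submodule S K) ≃ₗ[S] I :=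
    (Submodule.equivMapOfInjective (Algebra.linearMap S K) hinj I).symm
  exact Module.Invertible.congr e

end Fermat.Agent.S25.H671
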