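import Mathlib
import Fermat.Agent.S25.H671.LocPrincipal

/-!
# S25 / block HILB / leaf H2 (helper671): the diagonal ideal is invertible

For a `k`-algebra `B` such that `B ⊗[k] B` is a domain, the kernel `I_Δ` of the multiplication
map `B ⊗[k] B → B` is an invertible `B ⊗[k] B`-module as soon as it is finitely generated,
nonzero, and `Ω[B⁄k] = I_Δ / I_Δ ^ 2` is cyclic modulo every maximal ideal of `B`.
-/

namespace Fermat.Agent.S25.H671

open TensorProduct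

variable (k B : Type*) [CommRing k] [CommRing B] [Algebra k B]

/-- `Ω[B⁄k]` is cyclic modulo every maximal ideal of `B`. -/
def KaehlerLocallyCyclic : Prop :=
  ∀ 𝔫 : Ideal B, 𝔫.IsMaximal → ∃ ω : Ω[B⁄k],
    (⊤ : Submodule B Ω[B⁄k]) ≤ Submodule.span B {ω} ⊔ 𝔫 • (⊤ : Submodule B Ω[B⁄k])

variable {k B}

theorem lmul'_surjective : Function.Surjective (Algebra.TensorProduct.lmul' k : B ⊗[k] B →ₐ[k] B) :=
  fun b => ⟨b ⊗ₜ 1, by simp⟩

/-- The key local statement: at a maximal ideal `𝔪 ⊇ I_Δ`, the ideal `I_Δ` is generated by one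
element modulo `𝔪 * I_Δ`. -/
theorem kaehlerIdeal_cyclic_mod (h : KaehlerLocallyCyclic k B) (𝔪 : Ideal (B ⊗[k] B))
    (h𝔪 : 𝔪.IsMaximal) (hI𝔪 : KaehlerDifferential.ideal k B ≤ 𝔪) :
    ∃ t ∈ KaehlerDifferential.ideal k B,
      KaehlerDifferential.ideal k B ≤ Ideal.span {t} ⊔ 𝔪 * KaehlerDifferential.ideal k B := by
  classical
  set I := KaehlerDifferential.ideal k B with hIdef
  let μ : B ⊗[k] B →+* B := (Algebra.TensorProduct.lmul' k : B ⊗[k] B →ₐ[k] B).toRingHom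
  have hμ : Function.Surjective μ := lmul'_surjective
  let 𝔫 : Ideal B := Ideal.map μ 𝔪
  have hcomap : Ideal.comap μ 𝔫 = 𝔪 := by
    rw [Ideal.comap_map_of_surjective _ hμ]
    refine le_antisymm (sup_le le_rfl ?_) le_sup_left
    intro x hx
    rw [Ideal.mem_comap] at hx
    have hx' : x ∈ I := by
      rw [hIdef, RingHom.mem_ker]
      exact hx
    exact hI𝔪 hx'
  have h𝔫 : 𝔫.IsMaximal := by
    rcases Ideal.map_eq_top_or_isMaximal_of_surjective μ hμ h𝔪 with h1 | h1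
    · exfalso
      apply h𝔪.ne_top
      rw [← hcomap]
      show Ideal.comap μ (Ideal.map μ 𝔪) = ⊤
      rw [h1, Ideal.comap_top]
    · exact h1
  obtain ⟨ω, hω⟩ := h 𝔫 h𝔫
  obtain ⟨t, rfl⟩ := KaehlerDifferential.fromIdeal_surjective k B ω
  refine ⟨t.1, t.2, ?_⟩
  -- elements of `𝔫 • ⊤` lift to `𝔪 * I`
  have hII : I * I ≤ 𝔪 * I := Ideal.mul_mono_left hI𝔪
  have hlift : ∀ z ∈ 𝔫 • (⊤ : Submodule B Ω[B⁄k]),
      ∃ w : I, (w : B ⊗[k] B) ∈ 𝔪 * I ∧ KaehlerDifferential.fromIdeal k B w = z := by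
    intro z hz
    refine Submodule.smul_induction_on hz ?_ ?_
    · intro n hn ω' _
      obtain ⟨y', rfl⟩ := KaehlerDifferential.fromIdeal_surjective k B ω'
      -- lift `n` to `m ∈ 𝔪`
      have hn' : n ∈ Ideal.map μ 𝔪 := hn
      rw [Ideal.mem_map_iff_of_surjective _ hμ] at hn'
      obtain ⟨m, hm, hmn⟩ := hn'
      refine ⟨(n ⊗ₜ[k] (1 : B)) • y', ?_, ?_⟩
      · have hdiff : (n ⊗ₜ[k] (1 : B)) - m ∈ I := by
          rw [hIdef, RingHom.mem_ker, map_sub]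
          have : μ m = n := hmn
          show (Algebra.TensorProduct.lmul' k) (n ⊗ₜ[k] (1 : B)) - (Algebra.TensorProduct.lmul' k) m = 0
          rw [Algebra.TensorProduct.lmul'_apply_tmul, mul_one]
          exact sub_eq_zero.mpr this.symm
        have : ((n ⊗ₜ[k] (1 : B)) • y' : I).1 = m * y'.1 + ((n ⊗ₜ[k] (1 : B)) - m) * y'.1 := by
          show (n ⊗ₜ[k] (1 : B)) * y'.1 = _
          ring
        rw [this]
        exact add_mem (Ideal.mul_mem_mul hm y'.2) (hII (Ideal.mul_mem_mul hdiff y'.2))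
      · rw [map_smul]
        show (n ⊗ₜ[k] (1 : B)) • (KaehlerDifferential.fromIdeal k B) y' =
          n • (KaehlerDifferential.fromIdeal k B) y'
        rw [← algebraMap_smul (B ⊗[k] B) n ((KaehlerDifferential.fromIdeal k B) y')]
        rfl
    · rintro _ _ ⟨w₁, hw₁, rfl⟩ ⟨w₂, hw₂, rfl⟩
      exact ⟨w₁ + w₂, add_mem hw₁ hw₂, map_add _ _ _⟩
  intro y hy
  have hy' : KaehlerDifferential.fromIdeal k B ⟨y, hy⟩ ∈
      Submodule.span B {KaehlerDifferential.fromIdeal k B t} ⊔ 𝔫 • (⊤ : Submodule B Ω[B⁄k]) :=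
    hω trivial
  obtain ⟨a, ha, z, hz, haz⟩ := Submodule.mem_sup.mp hy'
  obtain ⟨b, rfl⟩ := Submodule.mem_span_singleton.mp ha
  obtain ⟨w, hw, rfl⟩ := hlift z hz
  -- now `fromIdeal (y - (b ⊗ 1) t - w) = 0`
  have hb : b • KaehlerDifferential.fromIdeal k B t =
      KaehlerDifferential.fromIdeal k B ((b ⊗ₜ[k] (1 : B)) • t) := by
    rw [map_smul, ← algebraMap_smul (B ⊗[k] B) b ((KaehlerDifferential.fromIdeal k B) t)]
    rfl
  rw [hb, ← map_add] at haz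
  have hzero : KaehlerDifferential.fromIdeal k B
      (⟨y, hy⟩ - ((b ⊗ₜ[k] (1 : B)) • t + w)) = 0 := by
    rw [map_sub, haz, sub_self]
  have hmem : ((⟨y, hy⟩ - ((b ⊗ₜ[k] (1 : B)) • t + w) : I) : B ⊗[k] B) ∈ I ^ 2 :=
    (Ideal.toCotangent_eq_zero _ _).mp hzero
  have hmem' : y - ((b ⊗ₜ[k] (1 : B)) * t.1 + w.1) ∈ 𝔪 * I := by
    have : I ^ 2 ≤ 𝔪 * I := by rw [pow_two]; exact hII
    exact this hmem
  have : y = (b ⊗ₜ[k] (1 : B)) * t.1 + (w.1 + (y - ((b ⊗ₜ[k] (1 : B)) * t.1 + w.1))) := by ring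
  rw [this]
  refine Submodule.add_mem_sup ?_ (add_mem hw hmem')
  exact Ideal.mem_span_singleton'.mpr ⟨_, rfl⟩

/-- **H2.** The diagonal ideal of `B ⊗[k] B` is an invertible module. -/
theorem kaehlerIdeal_invertible [IsDomain (B ⊗[k] B)]
    (hfg : (KaehlerDifferential.ideal k B).FG)
    (hne : KaehlerDifferential.ideal k B ≠ ⊥)
    (h : KaehlerLocallyCyclic k B) :
    Module.Invertible (B ⊗[k] B) (KaehlerDifferential.ideal k B) :=
  invertible_of_locally_cyclic _ hfg hne (fun 𝔪 h𝔪 hI => kaehlerIdeal_cyclic_mod h 𝔪 h𝔪 hI)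

end Fermat.Agent.S25.H671
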