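import Mathlib

/-!
# S25 shared lemma (helper671): finite projective modules of rank one are invertible

`Module.Invertible R P` for a finite projective `R`-module `P` with `Module.rankAtStalk P = 1`
everywhere, together with the rank of `P →ₗ[R] N`.
-/

namespace Fermat.Agent.S25.H671

open TensorProduct Module

variable {R : Type*} [CommRing R]
variable {P : Type*} [AddCommGroup P] [Module R P] [Module.Finite R P] [Module.Projective R P]

/-- The rank of `Hom(P, N)` at a prime, for finite projective `P` and `N`. -/
theorem rankAtStalk_linearMap (N : Type*) [AddCommGroup N] [Module R N] [Module.Finite R N]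
    [Module.Projective R N] (p : PrimeSpectrum R) :
    rankAtStalk (P →ₗ[R] N) p = rankAtStalk P p * rankAtStalk N p := by
  have : Module.FinitePresentation R P := Module.finitePresentation_of_projective R P
  let S := Localization.AtPrime p.asIdeal
  have hbc : IsBaseChange S (LinearMap.baseChangeHom R S P N) :=
    Module.FinitePresentation.isBaseChange_map R P N S
  have e : S ⊗[R] (P →ₗ[R] N) ≃ₗ[S] (S ⊗[R] P →ₗ[S] S ⊗[R] N) := hbc.equiv
  have : Module.Free S (S ⊗[R] P) := Module.free_of_flat_of_isLocalRing
  have : Module.Free S (S ⊗[R] N) := Module.free_of_flat_of_isLocalRing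
  rw [rankAtStalk_eq_finrank_tensorProduct, rankAtStalk_eq_finrank_tensorProduct,
    rankAtStalk_eq_finrank_tensorProduct, e.finrank_eq, Module.finrank_linearMap]

theorem rankAtStalk_dual (p : PrimeSpectrum R) :
    rankAtStalk (Module.Dual R P) p = rankAtStalk P p := by
  rcases subsingleton_or_nontrivial R with h | h
  · have h1 : Subsingleton P := Module.subsingleton R P
    have h2 : Subsingleton (Module.Dual R P) := Module.subsingleton R _
    rw [rankAtStalk_eq_zero_of_subsingleton, rankAtStalk_eq_zero_of_subsingleton]
  · have := rankAtStalk_linearMap (P := P) R p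
    rw [rankAtStalk_self] at this
    simpa using this

/-- If the contraction `P^* ⊗ P → R` is not surjective, `P` vanishes at some maximal ideal. -/
theorem contractLeft_surjective_of_rankAtStalk_pos
    (h : ∀ p : PrimeSpectrum R, 0 < rankAtStalk P p) :
    Function.Surjective (contractLeft R P) := by
  classical
  rw [← LinearMap.range_eq_top]
  by_contra hne
  let τ : Ideal R := LinearMap.range (contractLeft R P)
  obtain ⟨𝔪, h𝔪, hτ𝔪⟩ := Ideal.exists_le_maximal τ hne
  obtain ⟨n, f, g, -, -, hfg⟩ := Module.Finite.exists_comp_eq_id_of_projective R P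
  have hmem : ∀ x : P, x ∈ 𝔪 • (⊤ : Submodule R P) := by
    intro x
    have hx : x = ∑ i : Fin n, (g x) i • f (Pi.single i 1) := by
      conv_lhs => rw [← LinearMap.id_apply (R := R) x, ← hfg, LinearMap.comp_apply]
      conv_lhs => rw [← Finset.univ_sum_single (g x)]
      rw [map_sum]
      refine Finset.sum_congr rfl fun i _ => ?_
      rw [← map_smul]
      congr 1
      ext j
      simp [Pi.single_apply]
    rw [hx]
    refine Submodule.sum_mem _ fun i _ => ?_
    refine Submodule.smul_mem_smul ?_ trivial
    apply hτ𝔪
    refine ⟨((LinearMap.proj i : (Fin n → R) →ₗ[R] R) ∘ₗ g) ⊗ₜ[R] x, ?_⟩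
    simp [contractLeft_apply]
  have htop : (⊤ : Submodule R P) ≤ 𝔪 • (⊤ : Submodule R P) := fun x _ => hmem x
  obtain ⟨r, hr1, hr⟩ := Submodule.exists_sub_one_mem_and_smul_eq_zero_of_fg_of_le_smul 𝔪
    (⊤ : Submodule R P) Module.Finite.fg_top htop
  have hr𝔪 : r ∉ 𝔪 := by
    intro hr𝔪
    have : (1 : R) ∈ 𝔪 := by
      have := 𝔪.sub_mem hr𝔪 hr1
      simpa using this
    exact h𝔪.ne_top ((Ideal.eq_top_iff_one 𝔪).mpr this)
  have hp := h ⟨𝔪, h𝔪.isPrime⟩
  have hzero : rankAtStalk P ⟨𝔪, h𝔪.isPrime⟩ = 0 := by
    rw [rankAtStalk_eq_zero_iff_notMem_support, Module.notMem_support_iff']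
    intro x
    exact ⟨r, hr𝔪, hr x trivial⟩
  omega

/-- A finite projective module of rank one everywhere is invertible. -/
theorem invertible_of_rankAtStalk_eq_one (h : ∀ p : PrimeSpectrum R, rankAtStalk P p = 1) :
    Module.Invertible R P := by
  rcases subsingleton_or_nontrivial R with hR | hR
  · -- over the zero ring every map is bijective
    refine ⟨⟨fun x y _ => ?_, fun y => ⟨0, Subsingleton.elim _ _⟩⟩⟩
    have : Subsingleton (Module.Dual R P ⊗[R] P) := Module.subsingleton R _
    exact Subsingleton.elim _ _
  · have hs : Function.Surjective (contractLeft R P) :=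
      contractLeft_surjective_of_rankAtStalk_pos fun p => by rw [h p]; exact Nat.one_pos
    have hrk : ∀ (m : Ideal R) [m.IsMaximal],
        rankAtStalk (Module.Dual R P ⊗[R] P) ⟨m, inferInstance⟩ =
          rankAtStalk (R := R) R ⟨m, inferInstance⟩ := by
      intro m _
      rw [rankAtStalk_tensorProduct, Pi.mul_apply, rankAtStalk_dual, h, rankAtStalk_self]
      rfl
    have hb : Function.Bijective (contractLeft R P) :=
      Module.bijective_of_surjective_of_rankAtStalk_eq (M := Module.Dual R P ⊗[R] P) (N := R)
        (φ := contractLeft R P) hs hrk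
    exact ⟨hb⟩

end Fermat.Agent.S25.H671
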