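import Mathlib
import Fermat.Agent.S25.H671.RankOne

/-!
# S25 / block HILB / leaf H3 (helper671): Hilb = Div

Main result (`ideal_invertible_of_projective_quotient`): let `R` be an `A`-algebra whose diagonal
ideal `ker (R ⊗[A] R → R)` is an invertible `R ⊗[A] R`-module.  Then every ideal `I` of `R` such
that `R ⧸ I` is a finitely generated projective `A`-module is an invertible `R`-module.

Ingredients (all Mathlib-only):
* `schanuel` : Schanuel's lemma;
* `projective_trans` : projectivity is transitive;
* `rankAtStalk_eq_of_invertible` : an invertible module over a finite projective `R`-algebra `T`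
  has the same `R`-rank as `T` (Picard group of a semilocal ring is trivial);
* `diagKerEquiv` : `ker (R ⊗[A] (R ⧸ I) → R ⧸ I)` is the base change of the diagonal ideal.
-/

set_option autoImplicit false

open TensorProduct

namespace Fermat.Agent.S25.H671

section Schanuel

variable {R : Type*} [Ring R] {K K' P P' M : Type*}
    [AddCommGroup K] [Module R K] [AddCommGroup K'] [Module R K']
    [AddCommGroup P] [Module R P] [AddCommGroup P'] [Module R P']
    [AddCommGroup M] [Module R M]

/-- A surjection onto a projective module splits: the source is the product of the kernel and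
the target. -/
theorem nonempty_equiv_ker_prod_of_surjective {X : Type*} [AddCommGroup X] [Module R X]
    [Module.Projective R P] (f : X →ₗ[R] P) (hf : Function.Surjective f) :
    Nonempty (X ≃ₗ[R] (LinearMap.ker f × P)) := by
  obtain ⟨s, hs⟩ := Module.projective_lifting_property f LinearMap.id hf
  have hs' : ∀ p, f (s p) = p := fun p => by
    have := congrArg (fun g => g p) hs
    simpa using this
  refine ⟨LinearEquiv.ofLinearMap
    (LinearMap.prod ((LinearMap.id - s ∘ₗ f).codRestrict (LinearMap.ker f) (fun x => by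
      simp [hs'])) f)
    (LinearMap.coprod (LinearMap.ker f).subtype s) ?_ ?_⟩
  · apply LinearMap.ext
    rintro ⟨⟨k, hk⟩, p⟩
    have hk' : f k = 0 := hk
    ext
    · simp [hs', hk']
    · simp [hs', hk']
  · apply LinearMap.ext
    intro x
    simp

/-- **Schanuel's lemma.** -/
theorem schanuel [Module.Projective R P] [Module.Projective R P']
    (i : K →ₗ[R] P) (π : P →ₗ[R] M) (i' : K' →ₗ[R] P') (π' : P' →ₗ[R] M)
    (hi : Function.Injective i) (hπ : Function.Surjective π)
    (hex : LinearMap.range i = LinearMap.ker π)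
    (hi' : Function.Injective i') (hπ' : Function.Surjective π')
    (hex' : LinearMap.range i' = LinearMap.ker π') :
    Nonempty ((K × P') ≃ₗ[R] (K' × P)) := by
  -- the pullback
  let X : Submodule R (P × P') :=
    LinearMap.ker (π ∘ₗ LinearMap.fst R P P' - π' ∘ₗ LinearMap.snd R P P')
  have hX : ∀ x : P × P', x ∈ X ↔ π x.1 = π' x.2 := fun x => by
    simp [X, LinearMap.mem_ker, sub_eq_zero]
  let pr₁ : X →ₗ[R] P := LinearMap.fst R P P' ∘ₗ X.subtype
  let pr₂ : X →ₗ[R] P' := LinearMap.snd R P P' ∘ₗ X.subtype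
  have hpr₁ : Function.Surjective pr₁ := fun p => by
    obtain ⟨p', hp'⟩ := hπ' (π p)
    exact ⟨⟨(p, p'), (hX _).2 hp'.symm⟩, rfl⟩
  have hpr₂ : Function.Surjective pr₂ := fun p' => by
    obtain ⟨p, hp⟩ := hπ (π' p')
    exact ⟨⟨(p, p'), (hX _).2 hp⟩, rfl⟩
  -- kernel of pr₁ is K'
  let e₁ : K' ≃ₗ[R] LinearMap.ker pr₁ := by
    refine LinearEquiv.ofBijective
      (LinearMap.codRestrict (LinearMap.ker pr₁)
        (LinearMap.codRestrict X (LinearMap.inr R P P' ∘ₗ i') (fun k => ?_)) (fun k => ?_)) ⟨?_, ?_⟩
    · have : π' (i' k) = 0 := by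
        have : i' k ∈ LinearMap.ker π' := hex' ▸ LinearMap.mem_range_self i' k
        exact this
      simp [hX, this]
    · rw [LinearMap.mem_ker]; rfl
    · intro a b hab
      apply hi'
      exact congrArg (fun z : LinearMap.ker pr₁ => (z : X).1.2) hab
    · rintro ⟨⟨⟨p, p'⟩, hx⟩, hk⟩
      have hp : p = 0 := hk
      subst hp
      have hp' : π' p' = 0 := by
        have := (hX _).1 hx
        simpa using this.symm
      have : p' ∈ LinearMap.range i' := hex' ▸ hp'
      obtain ⟨k, rfl⟩ := this
      exact ⟨k, rfl⟩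
  let e₂ : K ≃ₗ[R] LinearMap.ker pr₂ := by
    refine LinearEquiv.ofBijective
      (LinearMap.codRestrict (LinearMap.ker pr₂)
        (LinearMap.codRestrict X (LinearMap.inl R P P' ∘ₗ i) (fun k => ?_)) (fun k => ?_)) ⟨?_, ?_⟩
    · have : π (i k) = 0 := by
        have : i k ∈ LinearMap.ker π := hex ▸ LinearMap.mem_range_self i k
        exact this
      simp [hX, this]
    · rw [LinearMap.mem_ker]; rfl
    · intro a b hab
      apply hi
      exact congrArg (fun z : LinearMap.ker pr₂ => (z : X).1.1) hab
    · rintro ⟨⟨⟨p, p'⟩, hx⟩, hk⟩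
      have hp : p' = 0 := hk
      subst hp
      have hp' : π p = 0 := by
        have := (hX _).1 hx
        simpa using this
      have : p ∈ LinearMap.range i := hex ▸ hp'
      obtain ⟨k, rfl⟩ := this
      exact ⟨k, rfl⟩
  obtain ⟨f₁⟩ := nonempty_equiv_ker_prod_of_surjective pr₁ hpr₁
  obtain ⟨f₂⟩ := nonempty_equiv_ker_prod_of_surjective pr₂ hpr₂
  exact ⟨(LinearEquiv.prodCongr e₂ (LinearEquiv.refl R P')) ≪≫ₗ f₂.symm ≪≫ₗ f₁ ≪≫ₗ
    (LinearEquiv.prodCongr e₁ (LinearEquiv.refl R P)).symm⟩

end Schanuel


section Trans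

variable (R T L : Type*) [CommRing R] [CommRing T] [Algebra R T]
  [AddCommGroup L] [Module R L] [Module T L] [IsScalarTower R T L]

/-- Projectivity is transitive. -/
theorem projective_trans [Module.Projective R T] [Module.Projective T L] :
    Module.Projective R L := by
  obtain ⟨s, hs⟩ := (Module.projective_def' (R := T) (P := L)).1 inferInstance
  have : Module.Projective R (L →₀ T) := by
    classical
    have e : (L →₀ T) ≃ₗ[R] (Π₀ _ : L, T) := finsuppLequivDFinsupp R
    exact Module.Projective.of_equiv e.symm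
  refine Module.Projective.of_split (s.restrictScalars R)
    ((Finsupp.linearCombination T id).restrictScalars R) ?_
  apply LinearMap.ext
  intro x
  have := congrArg (fun g => g x) hs
  simpa using this

/-- Fibre dimension of an invertible module over a finite algebra. -/
theorem finrank_tensor_eq_of_invertible [Module.Finite R T] [Module.Invertible T L]
    (κ : Type*) [Field κ] [Algebra R κ] :
    Module.finrank κ (κ ⊗[R] L) = Module.finrank κ (κ ⊗[R] T) := by
  let _ : Algebra T (κ ⊗[R] T) := Algebra.TensorProduct.rightAlgebra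
  have : IsArtinianRing (κ ⊗[R] T) := IsArtinianRing.of_finite κ _
  let e₁ : (κ ⊗[R] T) ⊗[T] L ≃ₗ[κ] κ ⊗[R] L :=
    Algebra.IsPushout.cancelBaseChange R κ T (κ ⊗[R] T) L
  obtain ⟨e₂⟩ : Nonempty (((κ ⊗[R] T) ⊗[T] L) ≃ₗ[κ ⊗[R] T] (κ ⊗[R] T)) :=
    (Module.Invertible.free_iff_linearEquiv).1 inferInstance
  rw [← e₁.finrank_eq, (e₂.restrictScalars κ).finrank_eq]

/-- An invertible module over a finite projective algebra has the same rank as the algebra. -/
theorem rankAtStalk_eq_of_invertible [Module.Finite R T] [Module.Projective R T]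
    [Module.Invertible T L] :
    Module.rankAtStalk (R := R) L = Module.rankAtStalk (R := R) T := by
  have : Module.Finite R L := Module.Finite.trans T L
  have : Module.Projective R L := projective_trans R T L
  ext p
  rw [Module.rankAtStalk_eq, Module.rankAtStalk_eq]
  exact finrank_tensor_eq_of_invertible R T L _

end Trans


section Diag

variable (A : Type*) {R : Type*} [CommRing A] [CommRing R] [Algebra A R] (I : Ideal R)

/-- The ideal of `R ⊗[A] R` generated by `1 ⊗ I`. -/
noncomputable abbrev rightIdeal : Ideal (R ⊗[A] R) :=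
  I.map (Algebra.TensorProduct.includeRight (R := A) (A := R) (B := R))

/-- The multiplication map `R ⊗[A] R → R`, as a ring homomorphism. -/
noncomputable def mulHom : R ⊗[A] R →+* R :=
  (Algebra.TensorProduct.lmul' A : R ⊗[A] R →ₐ[A] R).toRingHom

@[simp]
theorem mulHom_tmul (a b : R) : mulHom A (a ⊗ₜ[A] b) = a * b := by
  simp [mulHom]

theorem mulHom_algebraMap (r : R) : mulHom A (algebraMap R (R ⊗[A] R) r) = r := by
  rw [Algebra.TensorProduct.algebraMap_apply]
  simp [mulHom]

theorem mem_kaehlerIdeal_iff (x : R ⊗[A] R) :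
    x ∈ KaehlerDifferential.ideal A R ↔ mulHom A x = 0 := Iff.rfl

/-- The retraction `x ↦ x - 1 ⊗ μ(x)` of `R ⊗[A] R` onto the diagonal ideal. -/
noncomputable def diagRetract (x : R ⊗[A] R) : KaehlerDifferential.ideal A R :=
  ⟨x - (1 : R) ⊗ₜ[A] mulHom A x, by
    rw [mem_kaehlerIdeal_iff, map_sub, mulHom_tmul, one_mul, sub_self]⟩

theorem diagRetract_of_mem (x : R ⊗[A] R) (hx : x ∈ KaehlerDifferential.ideal A R) :
    diagRetract A x = ⟨x, hx⟩ := by
  apply Subtype.ext
  have : mulHom A x = 0 := hx
  simp [diagRetract, this]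

theorem diagRetract_zero : diagRetract A (0 : R ⊗[A] R) = 0 := by
  apply Subtype.ext
  simp [diagRetract]

theorem diagRetract_add (x y : R ⊗[A] R) :
    diagRetract A (x + y) = diagRetract A x + diagRetract A y := by
  apply Subtype.ext
  simp only [diagRetract, map_add, TensorProduct.tmul_add, Submodule.coe_add]
  ring

theorem diagRetract_mul_right (x : R ⊗[A] R) (r : R) :
    diagRetract A (x * (1 : R) ⊗ₜ[A] r) = ((1 : R) ⊗ₜ[A] r) • diagRetract A x := by
  apply Subtype.ext
  simp only [diagRetract, map_mul, mulHom_tmul, one_mul, Submodule.coe_smul, smul_eq_mul]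
  rw [mul_sub, Algebra.TensorProduct.tmul_mul_tmul, one_mul, mul_comm x, mul_comm r]

/-- The quotient `T = (R ⊗[A] R) ⧸ (1 ⊗ I)`. -/
abbrev QuotT : Type _ := (R ⊗[A] R) ⧸ rightIdeal A I

theorem one_tmul_diagRetract_eq_zero (y : R ⊗[A] R) (hy : y ∈ rightIdeal A I) :
    (1 : QuotT A I) ⊗ₜ[R ⊗[A] R] diagRetract A y = 0 := by
  suffices h : ∀ s : R ⊗[A] R, (1 : QuotT A I) ⊗ₜ[R ⊗[A] R] diagRetract A (s * y) = 0 by
    simpa using h 1
  induction hy using Submodule.span_induction with
  | mem x hx =>
    obtain ⟨i, hi, rfl⟩ := hx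
    intro s
    have h1 : Algebra.TensorProduct.includeRight (R := A) (A := R) (B := R) i
        = (1 : R) ⊗ₜ[A] i := rfl
    rw [h1, diagRetract_mul_right, ← TensorProduct.smul_tmul]
    have h2 : ((1 : R) ⊗ₜ[A] i) • (1 : QuotT A I) = 0 := by
      change Ideal.Quotient.mk (rightIdeal A I) ((((1 : R) ⊗ₜ[A] i) • (1 : R ⊗[A] R))) = 0
      rw [smul_eq_mul, mul_one]
      exact Ideal.Quotient.eq_zero_iff_mem.2 (Ideal.mem_map_of_mem _ hi)
    rw [h2, TensorProduct.zero_tmul]
  | zero => intro s; rw [mul_zero, diagRetract_zero, TensorProduct.tmul_zero]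
  | add x y _ _ hx hy =>
    intro s
    rw [mul_add, diagRetract_add, TensorProduct.tmul_add, hx, hy, add_zero]
  | smul a x _ hx =>
    intro s
    rw [smul_eq_mul, ← mul_assoc]
    exact hx _

variable {A} in
/-- The map `T ⊗[S] J → T`. -/
noncomputable def diagToQuot :
    QuotT A I ⊗[R ⊗[A] R] (KaehlerDifferential.ideal A R) →ₗ[QuotT A I] QuotT A I :=
  LinearMap.liftBaseChange (QuotT A I)
    ((Algebra.linearMap (R ⊗[A] R) (QuotT A I)) ∘ₗ (KaehlerDifferential.ideal A R).subtype)

theorem diagToQuot_tmul (t : QuotT A I) (j : KaehlerDifferential.ideal A R) :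
    diagToQuot I (t ⊗ₜ j) = t * Ideal.Quotient.mk _ (j : R ⊗[A] R) := by
  simp [diagToQuot]

theorem exists_one_tmul (x : QuotT A I ⊗[R ⊗[A] R] (KaehlerDifferential.ideal A R)) :
    ∃ j : KaehlerDifferential.ideal A R, x = (1 : QuotT A I) ⊗ₜ[R ⊗[A] R] j := by
  induction x with
  | zero => exact ⟨0, by simp⟩
  | tmul t j =>
    obtain ⟨s, rfl⟩ := Ideal.Quotient.mk_surjective t
    refine ⟨s • j, ?_⟩
    rw [← TensorProduct.smul_tmul]
    congr 1
    change _ = Ideal.Quotient.mk (rightIdeal A I) (s • (1 : R ⊗[A] R))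
    rw [smul_eq_mul, mul_one]
  | add x y hx hy =>
    obtain ⟨j, rfl⟩ := hx
    obtain ⟨j', rfl⟩ := hy
    exact ⟨j + j', by rw [TensorProduct.tmul_add]⟩

theorem diagToQuot_injective : Function.Injective (diagToQuot (A := A) I) := by
  rw [injective_iff_map_eq_zero]
  intro x hx
  obtain ⟨j, rfl⟩ := exists_one_tmul A I x
  rw [diagToQuot_tmul, one_mul, Ideal.Quotient.eq_zero_iff_mem] at hx
  have := one_tmul_diagRetract_eq_zero A I j hx
  rwa [diagRetract_of_mem A (j : R ⊗[A] R) j.2] at this


/-- The map `T → R ⧸ I` induced by multiplication. -/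
noncomputable def quotMul : QuotT A I →ₐ[R] (R ⧸ I) :=
  Ideal.Quotient.liftₐ (rightIdeal A I)
    ((Ideal.Quotient.mkₐ R I).comp (Algebra.TensorProduct.lmul'' A)) (by
      intro x hx
      have hle : rightIdeal A I ≤ RingHom.ker
          (((Ideal.Quotient.mkₐ R I).comp (Algebra.TensorProduct.lmul'' A) :
            R ⊗[A] R →ₐ[R] R ⧸ I) : R ⊗[A] R →+* R ⧸ I) := by
        rw [rightIdeal, Ideal.map_le_iff_le_comap]
        intro i hi
        rw [Ideal.mem_comap, RingHom.mem_ker]
        change Ideal.Quotient.mk I (Algebra.TensorProduct.lmul' A ((1 : R) ⊗ₜ[A] i)) = 0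
        rw [Algebra.TensorProduct.lmul'_apply_tmul, one_mul]
        exact Ideal.Quotient.eq_zero_iff_mem.2 hi
      exact hle hx)

theorem quotMul_mk (x : R ⊗[A] R) :
    quotMul A I (Ideal.Quotient.mk _ x) = Ideal.Quotient.mk I (mulHom A x) := rfl

theorem quotMul_surjective : Function.Surjective (quotMul A I) := by
  intro q
  obtain ⟨r, rfl⟩ := Ideal.Quotient.mk_surjective q
  exact ⟨Ideal.Quotient.mk _ (r ⊗ₜ[A] 1), by rw [quotMul_mk, mulHom_tmul, mul_one]⟩

/-- The kernel of `T → R ⧸ I`. -/
noncomputable abbrev diagKer : Ideal (QuotT A I) :=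
  RingHom.ker (quotMul A I : QuotT A I →+* R ⧸ I)

theorem range_diagToQuot : LinearMap.range (diagToQuot (A := A) I) = diagKer A I := by
  apply le_antisymm
  · rintro _ ⟨x, rfl⟩
    obtain ⟨j, rfl⟩ := exists_one_tmul A I x
    rw [diagToQuot_tmul, one_mul]
    change quotMul A I (Ideal.Quotient.mk _ (j : R ⊗[A] R)) = 0
    rw [quotMul_mk]
    have : mulHom A (j : R ⊗[A] R) = 0 := j.2
    rw [this, map_zero]
  · intro t ht
    obtain ⟨s, rfl⟩ := Ideal.Quotient.mk_surjective t
    have hs : Ideal.Quotient.mk I (mulHom A s) = 0 := ht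
    rw [Ideal.Quotient.eq_zero_iff_mem] at hs
    refine ⟨(1 : QuotT A I) ⊗ₜ[R ⊗[A] R] diagRetract A s, ?_⟩
    rw [diagToQuot_tmul, one_mul]
    change Ideal.Quotient.mk (rightIdeal A I) (s - (1 : R) ⊗ₜ[A] mulHom A s) = _
    rw [map_sub, sub_eq_self]
    exact Ideal.Quotient.eq_zero_iff_mem.2 (Ideal.mem_map_of_mem _ hs)

/-- `ker (T → R ⧸ I)` is the base change of the diagonal ideal. -/
noncomputable def diagKerEquiv :
    (QuotT A I ⊗[R ⊗[A] R] (KaehlerDifferential.ideal A R)) ≃ₗ[QuotT A I] diagKer A I :=
  (LinearEquiv.ofInjective _ (diagToQuot_injective A I)).trans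
    (LinearEquiv.ofEq _ _ (range_diagToQuot A I))

theorem diagKer_invertible [Module.Invertible (R ⊗[A] R) (KaehlerDifferential.ideal A R)] :
    Module.Invertible (QuotT A I) (diagKer A I) :=
  Module.Invertible.congr (diagKerEquiv A I)

end Diag


section Main

variable (A : Type*) {R : Type*} [CommRing A] [CommRing R] [Algebra A R] (I : Ideal R)

theorem quotT_finite [Module.Finite A (R ⧸ I)] : Module.Finite R (QuotT A I) :=
  Module.Finite.equiv
    (Algebra.TensorProduct.tensorQuotientEquiv (R := A) R R R I).toLinearEquiv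

theorem quotT_projective [Module.Projective A (R ⧸ I)] : Module.Projective R (QuotT A I) :=
  Module.Projective.of_equiv
    (Algebra.TensorProduct.tensorQuotientEquiv (R := A) R R R I).toLinearEquiv

/-- **Hilb = Div** (general form). If the diagonal ideal of `R` over `A` is invertible, then
every ideal of `R` with finite projective quotient over `A` is an invertible `R`-module. -/
theorem ideal_invertible_of_projective_quotient
    [Module.Invertible (R ⊗[A] R) (KaehlerDifferential.ideal A R)]
    [Module.Finite A (R ⧸ I)] [Module.Projective A (R ⧸ I)] : Module.Invertible R I := by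
  have hTf : Module.Finite R (QuotT A I) := quotT_finite A I
  have hTp : Module.Projective R (QuotT A I) := quotT_projective A I
  have hKinv : Module.Invertible (QuotT A I) (diagKer A I) := diagKer_invertible A I
  have hKf : Module.Finite R (diagKer A I) := Module.Finite.trans (QuotT A I) _
  have hKp : Module.Projective R (diagKer A I) := projective_trans R (QuotT A I) _
  have hKrank : Module.rankAtStalk (R := R) (diagKer A I) =
      Module.rankAtStalk (R := R) (QuotT A I) := rankAtStalk_eq_of_invertible R (QuotT A I) _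
  obtain ⟨e⟩ := schanuel (R := R) (I.subtype) (I.mkQ)
    ((diagKer A I).subtype.restrictScalars R) ((quotMul A I).toLinearMap)
    (Submodule.subtype_injective _) (Submodule.mkQ_surjective _)
    (by rw [Submodule.range_subtype, Submodule.ker_mkQ])
    (Submodule.subtype_injective _) (quotMul_surjective A I)
    (by
      ext t
      simp only [LinearMap.mem_range, LinearMap.mem_ker]
      constructor
      · rintro ⟨k, rfl⟩
        exact k.2
      · intro ht
        exact ⟨⟨t, ht⟩, rfl⟩)
  have hIT_f : Module.Finite R (I × QuotT A I) := Module.Finite.equiv e.symm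
  have hIT_p : Module.Projective R (I × QuotT A I) := Module.Projective.of_equiv e.symm
  have hIf : Module.Finite R I :=
    Module.Finite.of_surjective (LinearMap.fst R I (QuotT A I)) LinearMap.fst_surjective
  have hIp : Module.Projective R I :=
    Module.Projective.of_split (LinearMap.inl R I (QuotT A I)) (LinearMap.fst R I (QuotT A I))
      (LinearMap.fst_comp_inl R I (QuotT A I))
  apply invertible_of_rankAtStalk_eq_one
  intro p
  have hnt : Nontrivial R := p.nontrivial
  have h1 := congrFun (Module.rankAtStalk_eq_of_equiv e) p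
  rw [Module.rankAtStalk_prod, Module.rankAtStalk_prod, hKrank, Module.rankAtStalk_self] at h1
  simp only [Pi.add_apply, Pi.one_apply] at h1
  omega

end Main

end Fermat.Agent.S25.H671
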