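import Mathlib
import Fermat.Agent.S25.H671.HilbDiv
import Fermat.Agent.S25.H671.DiagBaseChange

/-!
# S25 / block HILB / leaf H3 (helper671): the skeleton statements

* `hilb_ideal_invertible` : an ideal of `A ⊗[k] B` with finite projective quotient over `A` is an
  invertible module, as soon as the diagonal ideal of `B` over `k` is invertible.
* `hilb_ideal_generator_regular` : a generator of such an ideal is a nonzerodivisor.

Both hold without the hypotheses `hdom`, `hinf` of the skeleton (kept in the `_skel` versions,
whose statements are exactly those of `coord/S25-HILB-skeleton.lean`).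
-/

set_option autoImplicit false

open TensorProduct

namespace Fermat.Agent.S25.H671

universe u

/-- A generator of a principal ideal which is an invertible module is a nonzerodivisor. -/
theorem mem_nonZeroDivisors_of_span_invertible {R : Type*} [CommRing R] (f : R)
    [Module.Invertible R (Ideal.span {f})] : f ∈ nonZeroDivisors R := by
  rw [mem_nonZeroDivisors_iff_right]
  intro g hg
  have h : ∀ x : Ideal.span {f}, g • x = (0 : R) • x := by
    rintro ⟨x, hx⟩
    obtain ⟨c, rfl⟩ := Ideal.mem_span_singleton'.1 hx
    apply Subtype.ext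
    simp only [Submodule.coe_smul, smul_eq_mul, zero_mul]
    rw [mul_left_comm, hg, mul_zero]
  exact FaithfulSMul.eq_of_smul_eq_smul h

section

variable (k : Type*) [CommRing k] (B : Type*) [CommRing B] [Algebra k B]
    [Module.Invertible (B ⊗[k] B) (KaehlerDifferential.ideal k B)]
    (A : Type*) [CommRing A] [Algebra k A] [Module.Flat k A]

/-- **H3 (Hilb = Div).** -/
theorem hilb_ideal_invertible (I : Ideal (A ⊗[k] B))
    [Module.Finite A ((A ⊗[k] B) ⧸ I)] [Module.Projective A ((A ⊗[k] B) ⧸ I)] :
    Module.Invertible (A ⊗[k] B) I := by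
  have := kaehlerIdeal_baseChange_invertible k A B
  exact ideal_invertible_of_projective_quotient A I

/-- **H3'.** -/
theorem hilb_ideal_generator_regular (f : A ⊗[k] B)
    [Module.Finite A ((A ⊗[k] B) ⧸ Ideal.span {f})]
    [Module.Projective A ((A ⊗[k] B) ⧸ Ideal.span {f})] :
    f ∈ nonZeroDivisors (A ⊗[k] B) := by
  have := hilb_ideal_invertible k B A (Ideal.span {f})
  exact mem_nonZeroDivisors_of_span_invertible f

end

/-- **H3**, exact skeleton statement. -/
theorem hilb_ideal_invertible_skel (k : Type u) [Field k] (B : Type u) [CommRing B] [Algebra k B]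
    [Module.Invertible (B ⊗[k] B) (KaehlerDifferential.ideal k B)]
    (hdom : ∀ (K : Type u) [Field K] [Algebra k K], IsDomain (K ⊗[k] B))
    (hinf : ¬ Module.Finite k B)
    (A : Type u) [CommRing A] [Algebra k A] (I : Ideal (A ⊗[k] B))
    [Module.Finite A ((A ⊗[k] B) ⧸ I)] [Module.Projective A ((A ⊗[k] B) ⧸ I)] :
    Module.Invertible (A ⊗[k] B) I :=
  hilb_ideal_invertible k B A I

/-- **H3'**, exact skeleton statement. -/
theorem hilb_ideal_generator_regular_skel (k : Type u) [Field k] (B : Type u) [CommRing B]
    [Algebra k B] [Module.Invertible (B ⊗[k] B) (KaehlerDifferential.ideal k B)]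
    (hdom : ∀ (K : Type u) [Field K] [Algebra k K], IsDomain (K ⊗[k] B))
    (hinf : ¬ Module.Finite k B)
    (A : Type u) [CommRing A] [Algebra k A] (f : A ⊗[k] B)
    [Module.Finite A ((A ⊗[k] B) ⧸ Ideal.span {f})]
    [Module.Projective A ((A ⊗[k] B) ⧸ Ideal.span {f})] :
    f ∈ nonZeroDivisors (A ⊗[k] B) :=
  hilb_ideal_generator_regular k B A f

end Fermat.Agent.S25.H671
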